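/-
Programme G1 (S48 = Deligne–Serre, the `Γ₁` stack), brick BLR — helper19.

**The Boston–Lenstra–Ribet extraction, as one abstract theorem (Mathlib only).**

Let `F` be a finite field of odd characteristic, `G` a group, `V ≠ 0` a finite-dimensional
`F`-representation of `G`, `δ : G →* Fˣ` a character, and assume that every `g ∈ G` satisfies an
Eichler–Shimura relation `g² - a(g) g + δ(g) = 0` on `V`.  Then there is a SEMISIMPLE
`ρ : G →* GL₂(F)` with `tr ρ(g) = a(g)`, `det ρ(g) = δ(g)` for every `g`, and `ρ(g) = 1` whenever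
`g` acts trivially on `V` and `δ(g) = 1`.

This is what chapter B5 of the programme consumes: `V` = a nonzero Hecke eigen-quotient of
`Pic⁰(F₁(M)·ℚ̄)[ℓ'] ⊗ k`, `δ = χ · cyc`; no Tate module, no Brauer–Nesbitt, no descent of the field
of definition is needed (the traces lie in `F`, and the construction stays over `F`).

Proof.
1. (`quadratic_of_mem_span`) polarising the relation with `g ↦ δ(g) g⁻¹` shows
   `gk + kg - a(k) g - a(g) k ∈ F·1` for `g, k ∈ G`; by bilinearity EVERY element `x` of the linear span
   of the image satisfies a monic quadratic `x² = t x - n` over `F` (this uses `2 ≠ 0`).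
2. (`finrank_le_two_of_quadratic`) a finite simple module `W` over a ring all of whose elements
   satisfy quadratics over `F` has `dim_F W ≤ 2`: `D = End_R W` is a finite division ring, hence a
   field (Wedderburn), the ring acts through all of `End_D W` (Jacobson density, Mathlib), and a
   nilpotent Jordan block of size three / `diag(c, 0)` with `c ∈ D ∖ F` / a generator of `Dˣ` would
   violate the quadratic condition.
3. `W ≤ V` minimal nonzero stable.  If `dim_F W = 2`: `ρ` := the matrices of `W`; a non-scalar `ρ(g)`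
   has characteristic polynomial `X² - a(g)X + δ(g)` by Cayley–Hamilton, a scalar `ρ(g) = c` has
   `c² = δ(g)` because `ρ(gk)` is non-scalar for a non-scalar `ρ(k)`, and then `a(g) = 2c`.
   If `dim_F W = 1`: `W = ψ` and `ρ := ψ ⊕ δψ⁻¹`.
-/
import Mathlib
import Fermat.Prelude.Def_GaloisRep_Residual

set_option autoImplicit false
set_option linter.style.haveILetI false
set_option linter.unusedSimpArgs false

namespace Fermat.Agent.DS.G1.BLR19

open Module

section Field

variable {F : Type*} [Field F] {D : Type*} [Field D] [Finite D] [Algebra F D]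

/-- a finite field extension in which every element satisfies a quadratic has degree `≤ 2` -/
theorem finrank_le_two_of_forall_quadratic
    (hqc : ∀ c : D, ∃ t n : F, c * c = t • c - n • (1 : D)) : Module.finrank F D ≤ 2 := by
  classical
  obtain ⟨θ, hθ⟩ := IsCyclic.exists_monoid_generator (α := Dˣ)
  have hpow : ∀ k : ℕ, ((θ : D) ^ k) ∈ Submodule.span F ({1, (θ : D)} : Set D) := by
    intro k
    induction k with
    | zero => simpa using Submodule.subset_span (by simp)
    | succ k ih =>
      obtain ⟨α, β, h⟩ := Submodule.mem_span_pair.mp ih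
      obtain ⟨t, n, hq⟩ := hqc θ
      rw [pow_succ, ← h, add_mul, smul_mul_assoc, smul_mul_assoc, one_mul, hq]
      refine Submodule.add_mem _ (Submodule.smul_mem _ _ (Submodule.subset_span (by simp))) ?_
      refine Submodule.smul_mem _ _ (Submodule.sub_mem _ ?_ ?_)
      · exact Submodule.smul_mem _ _ (Submodule.subset_span (by simp))
      · exact Submodule.smul_mem _ _ (Submodule.subset_span (by simp))
  have htop : Submodule.span F ((({1, (θ : D)} : Finset D)) : Set D) = ⊤ := by
    rw [eq_top_iff]
    intro c _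
    have hset : ((({1, (θ : D)} : Finset D)) : Set D) = {1, (θ : D)} := by simp
    rw [hset]
    by_cases hc : c = 0
    · simp [hc]
    · obtain ⟨k, hk⟩ := hθ (Units.mk0 c hc)
      have : c = (θ : D) ^ k := by
        have := congrArg (fun u : Dˣ => (u : D)) hk
        simpa using this.symm
      rw [this]
      exact hpow k
  calc Module.finrank F D = Module.finrank F (⊤ : Submodule F D) := (finrank_top F D).symm
    _ = Module.finrank F (Submodule.span F ((({1, (θ : D)} : Finset D)) : Set D)) := by rw [htop]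
    _ ≤ ({1, (θ : D)} : Finset D).card := finrank_span_finset_le_card _
    _ ≤ 2 := Finset.card_le_two

end Field

section Core

variable {F : Type*} [Field F] {R : Type*} [Ring R] [Algebra F R]
  {W : Type*} [AddCommGroup W] [Module R W] [Module F W] [IsScalarTower F R W]

/-- every `End_R W`-linear endomorphism of a finite simple module is the action of a ring element -/
theorem exists_smul_eq_of_endLinear [Finite W] [IsSimpleModule R W]
    (f : W →ₗ[Module.End R W] W) : ∃ x : R, ∀ w : W, x • w = f w := by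
  have : Module.Finite (Module.End R W) W := Module.Finite.of_finite
  obtain ⟨x, hx⟩ := Module.Finite.toModuleEnd_moduleEnd_surjective (R := R) (M := W) f
  refine ⟨x, fun w => ?_⟩
  rw [← hx]
  rfl

theorem finite_end [Finite W] : Finite (Module.End R W) :=
  Finite.of_injective (fun f : Module.End R W => (f : W → W)) DFunLike.coe_injective

/-- **Core lemma.**  A finite simple module on which every ring element satisfies a monic quadratic
polynomial over the field `F` has `F`-dimension at most two. -/
theorem finrank_le_two_of_quadratic [Finite W] [IsSimpleModule R W]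
    (hq : ∀ x : R, ∃ t n : F, ∀ w : W, x • x • w = t • x • w - n • w) :
    Module.finrank F W ≤ 2 := by
  classical
  haveI : Finite (Module.End R W) := finite_end
  letI : DivisionRing (Module.End R W) := Module.End.instDivisionRing
  letI : Field (Module.End R W) := littleWedderburn (Module.End R W)
  haveI : Module.Finite (Module.End R W) W := Module.Finite.of_finite
  haveI : Module.Finite F (Module.End R W) := Module.Finite.of_finite
  -- every `D`-linear endomorphism satisfies a quadratic over `F`
  have hqD : ∀ f : W →ₗ[Module.End R W] W, ∃ t n : F, ∀ w : W, f (f w) = t • f w - n • w := by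
    intro f
    obtain ⟨x, hx⟩ := exists_smul_eq_of_endLinear f
    obtain ⟨t, n, h⟩ := hq x
    refine ⟨t, n, fun w => ?_⟩
    have := h w
    rw [hx, hx] at this
    exact this
  -- every element of `D` satisfies a quadratic over `F`
  have hqc : ∀ c : Module.End R W, ∃ t n : F, c * c = t • c - n • (1 : Module.End R W) := by
    intro c
    obtain ⟨t, n, h⟩ := hqD (c • (LinearMap.id : W →ₗ[Module.End R W] W))
    refine ⟨t, n, LinearMap.ext fun w => ?_⟩
    have := h w
    simpa using this
  have hDrank : Module.finrank F (Module.End R W) ≤ 2 := finrank_le_two_of_forall_quadratic hqc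
  -- a basis of `W` over `D`
  let b := Module.Free.chooseBasis (Module.End R W) W
  have hA : ∀ i1 i2 i3 : Module.Free.ChooseBasisIndex (Module.End R W) W,
      i1 ≠ i2 → i1 ≠ i3 → i2 ≠ i3 → False := by
    intro i1 i2 i3 h12 h13 h23
    let f : W →ₗ[Module.End R W] W :=
      b.constr ℕ (fun i => if i = i1 then b i2 else if i = i2 then b i3 else 0)
    have hf : ∀ i, f (b i) = if i = i1 then b i2 else if i = i2 then b i3 else 0 :=
      fun i => b.constr_basis ℕ _ i
    have f1 : f (b i1) = b i2 := by rw [hf, if_pos rfl]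
    have f2 : f (b i2) = b i3 := by rw [hf, if_neg h12.symm, if_pos rfl]
    have f3 : f (b i3) = 0 := by rw [hf, if_neg h13.symm, if_neg h23.symm]
    obtain ⟨t, n, h⟩ := hqD f
    have e3 := h (b i3)
    rw [f3, map_zero, smul_zero, zero_sub] at e3
    have hn : n = 0 := by
      have : n • b i3 = 0 := by
        have := e3.symm
        rwa [neg_eq_zero] at this
      exact (smul_eq_zero.mp this).resolve_right (b.ne_zero i3)
    have e1 := h (b i1)
    rw [f1, f2, hn, zero_smul, sub_zero, ← smul_one_smul (Module.End R W) t (b i2)] at e1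
    have h1 : b.repr (b i3) i3 = 1 := by simp
    have h2 : b.repr ((t • (1 : Module.End R W)) • b i2) i3 = 0 := by
      rw [map_smul, Finsupp.smul_apply, Basis.repr_self, Finsupp.single_apply, if_neg h23,
        smul_zero]
    rw [e1, h2] at h1
    exact zero_ne_one h1
  have hB : ∀ i1 i2 : Module.Free.ChooseBasisIndex (Module.End R W) W, i1 ≠ i2 →
      ∀ c : Module.End R W, ∃ t : F, c = t • (1 : Module.End R W) := by
    intro i1 i2 h12 c
    let f : W →ₗ[Module.End R W] W :=
      b.constr ℕ (fun i => if i = i1 then c • b i1 else 0)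
    have hf : ∀ i, f (b i) = if i = i1 then c • b i1 else 0 :=
      fun i => b.constr_basis ℕ _ i
    have f1 : f (b i1) = c • b i1 := by rw [hf, if_pos rfl]
    have f2 : f (b i2) = 0 := by rw [hf, if_neg h12.symm]
    obtain ⟨t, n, h⟩ := hqD f
    have e2 := h (b i2)
    rw [f2, map_zero, smul_zero, zero_sub] at e2
    have hn : n = 0 := by
      have : n • b i2 = 0 := by
        have := e2.symm
        rwa [neg_eq_zero] at this
      exact (smul_eq_zero.mp this).resolve_right (b.ne_zero i2)
    have e1 := h (b i1)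
    rw [f1, map_smul, f1, hn, zero_smul, sub_zero] at e1
    have h0 : (c * c - t • c) • b i1 = 0 := by
      rw [sub_smul, mul_smul, smul_assoc, e1, sub_self]
    have hcc : c * c = t • c :=
      sub_eq_zero.mp ((smul_eq_zero.mp h0).resolve_right (b.ne_zero i1))
    by_cases hc : c = 0
    · exact ⟨0, by simp [hc]⟩
    · refine ⟨t, ?_⟩
      have : c * c = (t • (1 : Module.End R W)) * c := by rw [smul_mul_assoc, one_mul, hcc]
      exact mul_right_cancel₀ hc this
  have hcard : Fintype.card (Module.Free.ChooseBasisIndex (Module.End R W) W) ≤ 2 := by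
    by_contra hlt
    rw [not_le] at hlt
    obtain ⟨i1, i2, i3, h12, h13, h23⟩ := Fintype.two_lt_card_iff.mp hlt
    exact hA i1 i2 i3 h12 h13 h23
  have hrankW : Module.finrank (Module.End R W) W =
      Fintype.card (Module.Free.ChooseBasisIndex (Module.End R W) W) :=
    Module.finrank_eq_card_chooseBasisIndex (Module.End R W) W
  have htower : Module.finrank F (Module.End R W) * Module.finrank (Module.End R W) W =
      Module.finrank F W := Module.finrank_mul_finrank F (Module.End R W) W
  rcases Nat.lt_or_ge (Fintype.card (Module.Free.ChooseBasisIndex (Module.End R W) W)) 2 with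
    hlt | hge
  · calc Module.finrank F W
        = Module.finrank F (Module.End R W) * Module.finrank (Module.End R W) W := htower.symm
      _ ≤ 2 * 1 := Nat.mul_le_mul hDrank (by omega)
      _ = 2 := rfl
  · have h2 : Fintype.card (Module.Free.ChooseBasisIndex (Module.End R W) W) = 2 :=
      le_antisymm hcard hge
    obtain ⟨i1, i2, h12⟩ := Fintype.one_lt_card_iff.mp (by rw [h2]; exact Nat.one_lt_two)
    have hD1 : Module.finrank F (Module.End R W) = 1 :=
      finrank_eq_one (1 : Module.End R W) one_ne_zero (fun c => by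
        obtain ⟨t, ht⟩ := hB i1 i2 h12 c
        exact ⟨t, ht.symm⟩)
    rw [← htower, hD1, hrankW, h2]

end Core


section Mat

variable {F : Type*} [Field F]

theorem cayley_two (M : Matrix (Fin 2) (Fin 2) F) :
    M * M - M.trace • M + M.det • (1 : Matrix (Fin 2) (Fin 2) F) = 0 := by
  ext i j
  fin_cases i <;> fin_cases j <;>
    simp [Matrix.mul_apply, Fin.sum_univ_two, Matrix.trace, Matrix.det_fin_two] <;> ring

theorem smul_one_eq_zero_iff (c : F) : c • (1 : Matrix (Fin 2) (Fin 2) F) = 0 ↔ c = 0 := by
  constructor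
  · intro h
    have := congrFun (congrFun h 0) 0
    simpa using this
  · rintro rfl; simp

/-- a non-scalar `2 × 2` matrix killed by `X² - aX + δ` has trace `a` and determinant `δ` -/
theorem tr_det_of_nonscalar (M : Matrix (Fin 2) (Fin 2) F) (a δ : F)
    (hM : M * M - a • M + δ • (1 : Matrix (Fin 2) (Fin 2) F) = 0)
    (hns : ∀ c : F, M ≠ c • (1 : Matrix (Fin 2) (Fin 2) F)) : M.trace = a ∧ M.det = δ := by
  have hC := cayley_two M
  have hdiff : (a - M.trace) • M = (δ - M.det) • (1 : Matrix (Fin 2) (Fin 2) F) := by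
    have : (a - M.trace) • M - (δ - M.det) • (1 : Matrix (Fin 2) (Fin 2) F) =
        (M * M - M.trace • M + M.det • (1 : Matrix (Fin 2) (Fin 2) F)) -
          (M * M - a • M + δ • (1 : Matrix (Fin 2) (Fin 2) F)) := by
      module
    rw [hC, hM, sub_zero, sub_eq_zero] at this
    exact this
  have htr : M.trace = a := by
    by_contra hne
    have hne' : a - M.trace ≠ 0 := sub_ne_zero.mpr (Ne.symm hne)
    apply hns ((a - M.trace)⁻¹ * (δ - M.det))
    calc M = (a - M.trace)⁻¹ • ((a - M.trace) • M) := by
          rw [smul_smul, inv_mul_cancel₀ hne', one_smul]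
      _ = ((a - M.trace)⁻¹ * (δ - M.det)) • (1 : Matrix (Fin 2) (Fin 2) F) := by
          rw [hdiff, smul_smul]
  refine ⟨htr, ?_⟩
  rw [htr, sub_self, zero_smul] at hdiff
  have := (smul_one_eq_zero_iff _).mp hdiff.symm
  exact (sub_eq_zero.mp this).symm

end Mat


section Defs

variable {G : Type*} [Group G] {F : Type*} [Field F]

/-- every stable subspace has a stable complement (literal of `Contracts36.SemisimpleImage`) -/
def SemisimpleRep (ρ : G →* GL (Fin 2) F) : Prop :=
  ∀ L : Submodule F (Fin 2 → F),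
    (∀ σ : G, L.map (Matrix.toLin' ((ρ σ : GL (Fin 2) F) : Matrix (Fin 2) (Fin 2) F)) ≤ L) →
    ∃ L' : Submodule F (Fin 2 → F),
      (∀ σ : G, L'.map
        (Matrix.toLin' ((ρ σ : GL (Fin 2) F) : Matrix (Fin 2) (Fin 2) F)) ≤ L') ∧
      IsCompl L L'

variable {V : Type*} [AddCommGroup V] [Module F V] (r : Representation F G V)
  (δ : G →* Fˣ) (a : G → F)

def Rel : Prop :=
  ∀ g : G, r g * r g - a g • r g + (δ g : F) • (1 : Module.End F V) = 0

/-- a subspace stable under the group -/
def IsStable (U : Submodule F V) : Prop := ∀ g : G, ∀ v ∈ U, r g v ∈ U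

end Defs


section Quadratic

variable {G : Type*} [Group G] {F : Type*} [Field F] {V : Type*} [AddCommGroup V] [Module F V]
  (r : Representation F G V) (a : G → F)

/-- the pairs `(ρ(g), a(g))` -/
def pairSet : Set (Module.End F V × F) := Set.range fun g : G => (r g, a g)

variable {r} {δ : G →* Fˣ} {a}

theorem inv_form (h : Rel r δ a) (g : G) :
    r g + (δ g : F) • r g⁻¹ = a g • (1 : Module.End F V) := by
  have h1 : r g⁻¹ * r g = 1 := by rw [← map_mul, inv_mul_cancel, map_one]
  have hsq : r g * r g = a g • r g - (δ g : F) • (1 : Module.End F V) := by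
    have := h g
    rw [sub_add, sub_eq_zero] at this
    exact this
  have : r g = a g • (1 : Module.End F V) - (δ g : F) • r g⁻¹ := by
    calc r g = r g⁻¹ * (r g * r g) := by rw [← mul_assoc, h1, one_mul]
      _ = r g⁻¹ * (a g • r g - (δ g : F) • (1 : Module.End F V)) := by rw [hsq]
      _ = a g • (1 : Module.End F V) - (δ g : F) • r g⁻¹ := by
        rw [mul_sub, mul_smul_comm, mul_smul_comm, h1, mul_one]
  rw [eq_sub_iff_add_eq] at this
  exact this

/-- the polarised relation for two group elements -/
theorem base_identity (h : Rel r δ a) (g k : G) :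
    r g * r k + r k * r g - a k • r g - a g • r k =
      (a (g * k) - a g * a k) • (1 : Module.End F V) := by
  have e1 : (δ g : F) • r g⁻¹ = a g • (1 : Module.End F V) - r g :=
    eq_sub_of_add_eq' (inv_form h g)
  have e2 : (δ k : F) • r k⁻¹ = a k • (1 : Module.End F V) - r k :=
    eq_sub_of_add_eq' (inv_form h k)
  have e3 : r g * r k + ((δ g : F) * (δ k : F)) • (r k⁻¹ * r g⁻¹) =
      a (g * k) • (1 : Module.End F V) := by
    have := inv_form h (g * k)
    rw [map_mul, mul_inv_rev, map_mul, map_mul, Units.val_mul] at this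
    exact this
  have e4 : ((δ g : F) * (δ k : F)) • (r k⁻¹ * r g⁻¹) =
      ((δ k : F) • r k⁻¹) * ((δ g : F) • r g⁻¹) := by
    rw [smul_mul_smul_comm, mul_comm]
  rw [e4, e1, e2] at e3
  have e5 : (a k • (1 : Module.End F V) - r k) * (a g • (1 : Module.End F V) - r g) =
      (a k * a g) • (1 : Module.End F V) - a k • r g - a g • r k + r k * r g := by
    simp only [sub_mul, mul_sub, smul_mul_assoc, mul_smul_comm, one_mul, mul_one, smul_smul]
    module
  rw [e5] at e3
  have e6 : r g * r k + r k * r g - a k • r g - a g • r k =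
      (r g * r k + ((a k * a g) • (1 : Module.End F V) - a k • r g - a g • r k + r k * r g)) -
        (a k * a g) • (1 : Module.End F V) := by
    module
  rw [e6, e3]
  module

theorem bil_mem (h : Rel r δ a) :
    ∀ p ∈ Submodule.span F (pairSet r a), ∀ q ∈ Submodule.span F (pairSet r a),
      p.1 * q.1 + q.1 * p.1 - q.2 • p.1 - p.2 • q.1 ∈
        Submodule.span F {(1 : Module.End F V)} := by
  intro p hp q hq
  induction hp, hq using Submodule.span_induction₂ with
  | mem_mem p q hp hq =>
    obtain ⟨g, rfl⟩ := hp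
    obtain ⟨k, rfl⟩ := hq
    simp only
    rw [base_identity h g k]
    exact Submodule.smul_mem _ _ (Submodule.subset_span rfl)
  | zero_left q hq => simp
  | zero_right p hp => simp
  | add_left p p' q _ _ _ ih1 ih2 =>
    have := Submodule.add_mem _ ih1 ih2
    convert this using 1
    simp only [Prod.fst_add, Prod.snd_add, add_mul, mul_add, smul_add, add_smul]
    abel
  | add_right p q q' _ _ _ ih1 ih2 =>
    have := Submodule.add_mem _ ih1 ih2
    convert this using 1
    simp only [Prod.fst_add, Prod.snd_add, add_mul, mul_add, smul_add, add_smul]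
    abel
  | smul_left c p q _ _ ih =>
    have := Submodule.smul_mem _ c ih
    convert this using 1
    simp only [Prod.smul_fst, Prod.smul_snd, smul_mul_assoc, mul_smul_comm, smul_sub, smul_add,
      smul_smul, smul_eq_mul]
    module
  | smul_right c p q _ _ ih =>
    have := Submodule.smul_mem _ c ih
    convert this using 1
    simp only [Prod.smul_fst, Prod.smul_snd, smul_mul_assoc, mul_smul_comm, smul_sub, smul_add,
      smul_smul, smul_eq_mul]
    module

theorem exists_pair (x : Module.End F V) (hx : x ∈ Submodule.span F (Set.range r)) :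
    ∃ t : F, (x, t) ∈ Submodule.span F (pairSet r a) := by
  induction hx using Submodule.span_induction with
  | mem x hx =>
    obtain ⟨g, rfl⟩ := hx
    exact ⟨a g, Submodule.subset_span ⟨g, rfl⟩⟩
  | zero => exact ⟨0, Submodule.zero_mem _⟩
  | add x y _ _ ihx ihy =>
    obtain ⟨t, ht⟩ := ihx
    obtain ⟨s, hs⟩ := ihy
    exact ⟨t + s, Submodule.add_mem _ ht hs⟩
  | smul c x _ ih =>
    obtain ⟨t, ht⟩ := ih
    exact ⟨c * t, Submodule.smul_mem _ c ht⟩

/-- **every element of the linear span of the image satisfies a monic quadratic over `F`** -/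
theorem quadratic_of_mem_span (h2 : (2 : F) ≠ 0) (h : Rel r δ a) (x : Module.End F V)
    (hx : x ∈ Submodule.span F (Set.range r)) :
    ∃ t n : F, x * x = t • x - n • (1 : Module.End F V) := by
  obtain ⟨t, ht⟩ := exists_pair (a := a) x hx
  have := bil_mem h (x, t) ht (x, t) ht
  simp only at this
  obtain ⟨c, hc⟩ := Submodule.mem_span_singleton.mp this
  refine ⟨t, -(c / 2), ?_⟩
  have h3 : (2 : F) • (x * x) = (2 : F) • (t • x - (-(c / 2)) • (1 : Module.End F V)) := by
    have e : (2 : F) • (t • x - (-(c / 2)) • (1 : Module.End F V)) =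
        (2 : F) • t • x + c • (1 : Module.End F V) := by
      rw [smul_sub, neg_smul, smul_neg, sub_neg_eq_add, smul_smul 2 (c / 2), mul_div_cancel₀ c h2]
    rw [e, hc]
    module
  exact smul_right_injective _ h2 h3

end Quadratic


section Diag

variable {G : Type*} [Group G] {F : Type*} [Field F]

/-- a representation by diagonal matrices is semisimple -/
theorem semisimpleRep_of_diagonal (ρ : G →* GL (Fin 2) F) (d : G → Fin 2 → F)
    (hd : ∀ g : G, ((ρ g : GL (Fin 2) F) : Matrix (Fin 2) (Fin 2) F) = Matrix.diagonal (d g)) :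
    SemisimpleRep ρ := by
  classical
  have hact : ∀ (g : G) (v : Fin 2 → F),
      Matrix.toLin' ((ρ g : GL (Fin 2) F) : Matrix (Fin 2) (Fin 2) F) v = fun i => d g i * v i := by
    intro g v
    rw [hd, Matrix.toLin'_apply]
    funext i
    rw [Matrix.mulVec_diagonal]
  intro L hL
  have hL' : ∀ g : G, ∀ v ∈ L, (fun i => d g i * v i) ∈ L := by
    intro g v hv
    rw [← hact]
    exact hL g ⟨v, hv, rfl⟩
  by_cases hsc : ∀ g : G, d g 0 = d g 1
  · -- all scalar
    obtain ⟨L', hc⟩ := Submodule.exists_isCompl L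
    refine ⟨L', fun g => ?_, hc⟩
    rintro _ ⟨v, hv, rfl⟩
    rw [hact]
    have : (fun i => d g i * v i) = d g 0 • v := by
      funext i
      fin_cases i
      · simp
      · simp [hsc g]
    rw [this]
    exact L'.smul_mem _ hv
  · push Not at hsc
    obtain ⟨g0, hg0⟩ := hsc
    -- coordinate vectors of elements of `L` lie in `L`
    have hcoord : ∀ v ∈ L, ∀ i : Fin 2, v i ≠ 0 → Pi.single i (1 : F) ∈ L := by
      intro v hv i hvi
      have h1 := hL' g0 v hv
      -- `D v - (d g0 j) • v` with `j` the other index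
      have key : ∀ j : Fin 2, j ≠ i → ((d g0 i - d g0 j) * v i) • Pi.single i (1 : F) ∈ L := by
        intro j hji
        have h2 : (fun m => d g0 m * v m) - d g0 j • v ∈ L := L.sub_mem h1 (L.smul_mem _ hv)
        convert h2 using 1
        funext m
        fin_cases i <;> fin_cases j <;> fin_cases m <;> simp_all <;> ring
      have hj : ∃ j : Fin 2, j ≠ i := by
        fin_cases i
        · exact ⟨1, by decide⟩
        · exact ⟨0, by decide⟩
      obtain ⟨j, hji⟩ := hj
      have hne : (d g0 i - d g0 j) * v i ≠ 0 := by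
        refine mul_ne_zero (sub_ne_zero.mpr ?_) hvi
        fin_cases i <;> fin_cases j <;> simp_all
        · exact fun h => hg0 h.symm
      have := L.smul_mem ((d g0 i - d g0 j) * v i)⁻¹ (key j hji)
      rwa [smul_smul, inv_mul_cancel₀ hne, one_smul] at this
    -- the complement
    let L' : Submodule F (Fin 2 → F) :=
      { carrier := {v | ∀ i : Fin 2, Pi.single i (1 : F) ∈ L → v i = 0}
        add_mem' := by
          intro v w hv hw i hi
          simp [hv i hi, hw i hi]
        zero_mem' := by intro i _; rfl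
        smul_mem' := by
          intro c v hv i hi
          simp [hv i hi] }
    refine ⟨L', fun g => ?_, ?_⟩
    · rintro _ ⟨v, hv, rfl⟩
      rw [hact]
      intro i hi
      show d g i * v i = 0
      rw [hv i hi, mul_zero]
    · constructor
      · rw [disjoint_iff]
        rw [eq_bot_iff]
        rintro v ⟨hvL, hvL'⟩
        rw [Submodule.mem_bot]
        funext i
        by_contra hvi
        exact hvi (hvL' i (hcoord v hvL i hvi))
      · rw [codisjoint_iff, eq_top_iff]
        intro v _
        have hv : v = ∑ i : Fin 2, v i • Pi.single i (1 : F) := by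
          funext m
          fin_cases m <;> simp [Fin.sum_univ_two]
        rw [hv]
        refine Submodule.sum_mem _ fun i _ => ?_
        by_cases hi : Pi.single i (1 : F) ∈ L
        · exact Submodule.mem_sup_left (L.smul_mem _ hi)
        · refine Submodule.mem_sup_right ?_
          intro m hm
          have hmi : m ≠ i := fun h => hi (h ▸ hm)
          simp [Pi.single_apply, hmi]

end Diag


section DimOne

variable {G : Type*} [Group G] {F : Type*} [Field F]
  {V : Type*} [AddCommGroup V] [Module F V] {r : Representation F G V}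
  {δ : G →* Fˣ} {a : G → F}

theorem exists_rep_of_finrank_one (hrel : Rel r δ a) {W : Submodule F V} (hW : IsStable r W)
    (h1 : Module.finrank F W = 1) :
    ∃ ρ : G →* GL (Fin 2) F, SemisimpleRep ρ ∧
      (∀ g : G, Matrix.trace ((ρ g : GL (Fin 2) F) : Matrix (Fin 2) (Fin 2) F) = a g ∧
        Matrix.det ((ρ g : GL (Fin 2) F) : Matrix (Fin 2) (Fin 2) F) = δ g) ∧
      ∀ g : G, r g = 1 → δ g = 1 → ρ g = 1 := by
  classical
  obtain ⟨w0, hw0, hspan⟩ := finrank_eq_one_iff'.mp h1
  have hw0V : (w0 : V) ≠ 0 := fun h0 => hw0 (Subtype.ext h0)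
  have hex : ∀ g : G, ∃ c : F, c • (w0 : V) = r g (w0 : V) := by
    intro g
    obtain ⟨c, hc⟩ := hspan ⟨r g w0, hW g _ w0.2⟩
    exact ⟨c, congrArg Subtype.val hc⟩
  choose ψ hψ using hex
  have huniq : ∀ c c' : F, c • (w0 : V) = c' • (w0 : V) → c = c' := by
    intro c c' h
    have h0 : (c - c') • (w0 : V) = 0 := by rw [sub_smul, h, sub_self]
    rcases smul_eq_zero.mp h0 with h' | h'
    · exact sub_eq_zero.mp h'
    · exact absurd h' hw0V
  have hψ1 : ψ 1 = 1 := huniq _ _ (by rw [hψ, map_one, one_smul]; rfl)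
  have hψmul : ∀ g k : G, ψ (g * k) = ψ g * ψ k := by
    intro g k
    apply huniq
    rw [hψ, map_mul, Module.End.mul_apply, ← hψ k, map_smul, ← hψ g, smul_smul, mul_comm]
  have hψne : ∀ g : G, ψ g ≠ 0 := by
    intro g h0
    have := hψmul g g⁻¹
    rw [mul_inv_cancel, hψ1, h0, zero_mul] at this
    exact one_ne_zero this
  have hquad : ∀ g : G, ψ g * ψ g - a g * ψ g + δ g = 0 := by
    intro g
    have := congrArg (fun f : Module.End F V => f (w0 : V)) (hrel g)
    simp only [LinearMap.add_apply, LinearMap.sub_apply, Module.End.mul_apply,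
      LinearMap.smul_apply, Module.End.one_apply, LinearMap.zero_apply] at this
    rw [← hψ g, map_smul, ← hψ g, smul_smul, smul_smul, ← sub_smul, ← add_smul] at this
    exact (smul_eq_zero.mp this).resolve_right hw0V
  -- the diagonal homomorphism
  let d : G →* (Fin 2 → F) :=
    { toFun := fun g => ![ψ g, (δ g : F) * (ψ g)⁻¹]
      map_one' := by
        funext i
        fin_cases i <;> simp [hψ1]
      map_mul' := by
        intro g k
        funext i
        fin_cases i
        · simp [hψmul]
        · simp [hψmul]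
          ring }
  let ρ : G →* GL (Fin 2) F :=
    (((Matrix.diagonalRingHom (Fin 2) F : (Fin 2 → F) →+* Matrix (Fin 2) (Fin 2) F) :
      (Fin 2 → F) →* Matrix (Fin 2) (Fin 2) F).comp d).toHomUnits
  have hρ : ∀ g : G, ((ρ g : GL (Fin 2) F) : Matrix (Fin 2) (Fin 2) F) =
      Matrix.diagonal (d g) := fun g => rfl
  have hd0 : ∀ g : G, d g 0 = ψ g := fun g => rfl
  have hd1 : ∀ g : G, d g 1 = (δ g : F) * (ψ g)⁻¹ := fun g => rfl
  refine ⟨ρ, semisimpleRep_of_diagonal ρ d hρ, fun g => ⟨?_, ?_⟩, fun g hg hδ => ?_⟩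
  · rw [hρ, Matrix.trace_diagonal, Fin.sum_univ_two, hd0, hd1]
    have := hψne g
    field_simp
    linear_combination hquad g
  · rw [hρ, Matrix.det_diagonal, Fin.prod_univ_two, hd0, hd1]
    have := hψne g
    field_simp
  · apply Units.ext
    rw [hρ]
    have h1 : ψ g = 1 := huniq _ _ (by rw [hψ, hg, one_smul]; rfl)
    have : d g = 1 := by
      funext i
      fin_cases i
      · exact h1
      · show (δ g : F) * (ψ g)⁻¹ = 1
        rw [h1, hδ]
        simp
    rw [this]
    exact Matrix.diagonal_one

end DimOne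


section DimTwo

variable {G : Type*} [Group G] {F : Type*} [Field F]
  {V : Type*} [AddCommGroup V] [Module F V] [Module.Finite F V] {r : Representation F G V}
  {δ : G →* Fˣ} {a : G → F}

theorem exists_rep_of_finrank_two (hrel : Rel r δ a) {W : Submodule F V} (hW : IsStable r W)
    (hmin : ∀ U : Submodule F V, IsStable r U → U ≤ W → U = ⊥ ∨ U = W)
    (h2 : Module.finrank F W = 2) :
    ∃ ρ : G →* GL (Fin 2) F, SemisimpleRep ρ ∧
      (∀ g : G, Matrix.trace ((ρ g : GL (Fin 2) F) : Matrix (Fin 2) (Fin 2) F) = a g ∧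
        Matrix.det ((ρ g : GL (Fin 2) F) : Matrix (Fin 2) (Fin 2) F) = δ g) ∧
      ∀ g : G, r g = 1 → ρ g = 1 := by
  classical
  -- the subrepresentation
  let σ : Representation F G W := (⟨W, hW⟩ : Subrepresentation r).toRepresentation
  have hσ : ∀ (g : G) (w : W), ((σ g w : W) : V) = r g (w : V) := fun g w => rfl
  -- coordinates
  let e : W ≃ₗ[F] (Fin 2 → F) :=
    LinearEquiv.ofFinrankEq _ _ (by rw [h2, Module.finrank_fin_fun])
  let Φ : Module.End F W ≃ₐ[F] Matrix (Fin 2) (Fin 2) F :=
    (e.conjAlgEquiv F).trans LinearMap.toMatrixAlgEquiv'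
  let ρ : G →* GL (Fin 2) F := ((Φ : Module.End F W →* Matrix (Fin 2) (Fin 2) F).comp σ).toHomUnits
  have hρ : ∀ g : G, ((ρ g : GL (Fin 2) F) : Matrix (Fin 2) (Fin 2) F) = Φ (σ g) := fun g => rfl
  have hlin : ∀ g : G, Matrix.toLin' ((ρ g : GL (Fin 2) F) : Matrix (Fin 2) (Fin 2) F) =
      (e : W →ₗ[F] (Fin 2 → F)) ∘ₗ σ g ∘ₗ (e.symm : (Fin 2 → F) →ₗ[F] W) := by
    intro g
    rw [hρ]
    simp only [Φ, AlgEquiv.trans_apply]
    ext v
    simp [LinearEquiv.conjAlgEquiv_apply]
  -- the relation on `W` and on matrices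
  have hrelσ : ∀ g : G, σ g * σ g - a g • σ g + (δ g : F) • (1 : Module.End F W) = 0 := by
    intro g
    ext w
    have := congrArg (fun f : Module.End F V => f (w : V)) (hrel g)
    simpa [hσ] using this
  have hrelM : ∀ g : G,
      ((ρ g : GL (Fin 2) F) : Matrix (Fin 2) (Fin 2) F) * ((ρ g : GL (Fin 2) F) : Matrix _ _ F) -
        a g • ((ρ g : GL (Fin 2) F) : Matrix _ _ F) +
          (δ g : F) • (1 : Matrix (Fin 2) (Fin 2) F) = 0 := by
    intro g
    rw [hρ]
    have := congrArg Φ (hrelσ g)
    simpa only [map_sub, map_add, map_mul, map_smul, map_one, map_zero] using this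
  -- some group element is not a scalar
  have hns : ∃ k : G, ∀ c : F, ((ρ k : GL (Fin 2) F) : Matrix (Fin 2) (Fin 2) F) ≠
      c • (1 : Matrix (Fin 2) (Fin 2) F) := by
    by_contra hcon
    push Not at hcon
    have hσs : ∀ k : G, ∃ c : F, σ k = c • (1 : Module.End F W) := by
      intro k
      obtain ⟨c, hc⟩ := hcon k
      refine ⟨c, Φ.injective ?_⟩
      rw [← hρ, hc, map_smul, map_one]
    haveI : Nontrivial W := Module.nontrivial_of_finrank_pos (R := F) (by rw [h2]; norm_num)
    obtain ⟨w, hw⟩ := exists_ne (0 : W)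
    have hwV : (w : V) ≠ 0 := fun h0 => hw (Subtype.ext h0)
    have hU : IsStable r (Submodule.span F {(w : V)}) := by
      intro k v hv
      obtain ⟨t, rfl⟩ := Submodule.mem_span_singleton.mp hv
      obtain ⟨c, hc⟩ := hσs k
      have : r k (w : V) = c • (w : V) := by
        have := congrArg (fun f : Module.End F W => ((f w : W) : V)) hc
        simpa [hσ] using this
      rw [map_smul, this]
      exact Submodule.smul_mem _ _ (Submodule.smul_mem _ _ (Submodule.mem_span_singleton_self _))
    have hUW : Submodule.span F {(w : V)} ≤ W := by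
      rw [Submodule.span_singleton_le_iff_mem]; exact w.2
    rcases hmin _ hU hUW with h | h
    · have : (w : V) ∈ Submodule.span F {(w : V)} := Submodule.mem_span_singleton_self _
      rw [h, Submodule.mem_bot] at this
      exact hwV this
    · have h1 : Module.finrank F (Submodule.span F {(w : V)}) = 1 := finrank_span_singleton hwV
      rw [h, h2] at h1
      norm_num at h1
  -- scalars are nonzero
  have hc0 : ∀ (g : G) (c : F), ((ρ g : GL (Fin 2) F) : Matrix (Fin 2) (Fin 2) F) =
      c • (1 : Matrix (Fin 2) (Fin 2) F) → c ≠ 0 := by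
    intro g c hc h0
    have h1 : ((ρ g : GL (Fin 2) F) : Matrix (Fin 2) (Fin 2) F) = 0 := by rw [hc, h0, zero_smul]
    have hu : IsUnit ((ρ g : GL (Fin 2) F) : Matrix (Fin 2) (Fin 2) F) := (ρ g).isUnit
    rw [h1] at hu
    exact not_isUnit_zero hu
  obtain ⟨k, hk⟩ := hns
  have hkd := tr_det_of_nonscalar _ _ _ (hrelM k) hk
  have htd : ∀ g : G, Matrix.trace ((ρ g : GL (Fin 2) F) : Matrix (Fin 2) (Fin 2) F) = a g ∧
        Matrix.det ((ρ g : GL (Fin 2) F) : Matrix (Fin 2) (Fin 2) F) = δ g := by
    intro g
    by_cases hg : ∃ c : F, ((ρ g : GL (Fin 2) F) : Matrix (Fin 2) (Fin 2) F) =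
        c • (1 : Matrix (Fin 2) (Fin 2) F)
    · obtain ⟨c, hc⟩ := hg
      have hcne := hc0 g c hc
      have hgk : ((ρ (g * k) : GL (Fin 2) F) : Matrix (Fin 2) (Fin 2) F) =
          c • ((ρ k : GL (Fin 2) F) : Matrix (Fin 2) (Fin 2) F) := by
        rw [map_mul, Units.val_mul, hc, smul_mul_assoc, one_mul]
      have hgkns : ∀ c' : F, ((ρ (g * k) : GL (Fin 2) F) : Matrix (Fin 2) (Fin 2) F) ≠
          c' • (1 : Matrix (Fin 2) (Fin 2) F) := by
        intro c' h'
        apply hk (c⁻¹ * c')
        rw [hgk] at h'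
        calc ((ρ k : GL (Fin 2) F) : Matrix (Fin 2) (Fin 2) F)
            = c⁻¹ • (c • ((ρ k : GL (Fin 2) F) : Matrix (Fin 2) (Fin 2) F)) := by
              rw [smul_smul, inv_mul_cancel₀ hcne, one_smul]
          _ = (c⁻¹ * c') • (1 : Matrix (Fin 2) (Fin 2) F) := by rw [h', smul_smul]
      have hgkd := tr_det_of_nonscalar _ _ _ (hrelM (g * k)) hgkns
      have hdet : c * c = δ g := by
        have h1 := hgkd.2
        rw [hgk, Matrix.det_smul, hkd.2, map_mul, Units.val_mul, Fintype.card_fin] at h1
        have hδk : ((δ k : Fˣ) : F) ≠ 0 := Units.ne_zero _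
        have := mul_right_cancel₀ hδk h1
        rw [← this]
        ring
      have hr := hrelM g
      rw [hc] at hr
      have hr' : (c * c - a g * c + δ g) • (1 : Matrix (Fin 2) (Fin 2) F) = 0 := by
        rw [← hr]
        simp only [smul_mul_assoc, mul_smul_comm, one_mul, smul_smul]
        module
      have hr'' := (smul_one_eq_zero_iff _).mp hr'
      have hac : a g = 2 * c := by
        have h3 : c * (2 * c - a g) = 0 := by
          rw [← hdet] at hr''
          linear_combination hr''
        rcases mul_eq_zero.mp h3 with h | h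
        · exact absurd h hcne
        · exact (sub_eq_zero.mp h).symm
      constructor
      · rw [hc, Matrix.trace_smul, Matrix.trace_one, Fintype.card_fin, hac]
        simp [mul_comm]
      · rw [hc, Matrix.det_smul, Matrix.det_one, Fintype.card_fin, ← hdet]
        ring
    · push Not at hg
      exact tr_det_of_nonscalar _ _ _ (hrelM g) hg
  -- semisimplicity
  have hss : SemisimpleRep ρ := by
    intro L hL
    have hιinj : Function.Injective (W.subtype ∘ₗ (e.symm : (Fin 2 → F) →ₗ[F] W)) :=
      W.injective_subtype.comp e.symm.injective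
    have hU : IsStable r (L.map (W.subtype ∘ₗ (e.symm : (Fin 2 → F) →ₗ[F] W))) := by
      intro g v hv
      obtain ⟨l, hl, rfl⟩ := hv
      refine ⟨Matrix.toLin' ((ρ g : GL (Fin 2) F) : Matrix (Fin 2) (Fin 2) F) l,
        hL g ⟨l, hl, rfl⟩, ?_⟩
      rw [hlin]
      simp [hσ]
    have hUW : L.map (W.subtype ∘ₗ (e.symm : (Fin 2 → F) →ₗ[F] W)) ≤ W := by
      rintro _ ⟨l, -, rfl⟩
      exact (e.symm l).2
    rcases hmin _ hU hUW with h | h
    · have hL0 : L = ⊥ := by
        rw [eq_bot_iff]
        intro l hl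
        have : (W.subtype ∘ₗ (e.symm : (Fin 2 → F) →ₗ[F] W)) l ∈
            L.map (W.subtype ∘ₗ (e.symm : (Fin 2 → F) →ₗ[F] W)) := ⟨l, hl, rfl⟩
        rw [h, Submodule.mem_bot] at this
        rw [Submodule.mem_bot]
        exact hιinj (by rw [this, map_zero])
      rw [hL0]
      exact ⟨⊤, fun _ => le_top, isCompl_bot_top⟩
    · have hL1 : L = ⊤ := by
        rw [eq_top_iff]
        intro l _
        have : (W.subtype ∘ₗ (e.symm : (Fin 2 → F) →ₗ[F] W)) l ∈
            L.map (W.subtype ∘ₗ (e.symm : (Fin 2 → F) →ₗ[F] W)) := by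
          rw [h]
          exact (e.symm l).2
        obtain ⟨l', hl', hll'⟩ := this
        rw [← hιinj hll']
        exact hl'
      rw [hL1]
      exact ⟨⊥, fun _ => by simp, isCompl_top_bot⟩
  refine ⟨ρ, hss, htd, fun g hg => ?_⟩
  apply Units.ext
  rw [hρ]
  have : σ g = 1 := by
    ext w
    rw [hσ, hg]
    rfl
  rw [this, map_one]
  rfl

end DimTwo

section Asm

variable {G : Type*} [Group G] {F : Type*} [Field F] {V : Type*} [AddCommGroup V] [Module F V]
  (r : Representation F G V)

/-- the image algebra -/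
def imgAlg : Subalgebra F (Module.End F V) := Algebra.adjoin F (Set.range r)

theorem mem_span_of_mem_imgAlg {x : Module.End F V} (hx : x ∈ imgAlg r) :
    x ∈ Submodule.span F (Set.range r) := by
  have h1 : (imgAlg r).toSubmodule = Submodule.span F (Submonoid.closure (Set.range r) : Set _) :=
    Algebra.adjoin_eq_span F (Set.range r)
  have h2 : (Submonoid.closure (Set.range r) : Set (Module.End F V)) = Set.range r := by
    rw [← MonoidHom.coe_mrange, Submonoid.closure_eq]
  have : x ∈ (imgAlg r).toSubmodule := hx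
  rw [h1, h2] at this
  exact this

variable {r}

theorem IsStable.apply_mem {U : Submodule F V} (hU : IsStable r U) {x : Module.End F V}
    (hx : x ∈ Submodule.span F (Set.range r)) {v : V} (hv : v ∈ U) : x v ∈ U := by
  induction hx using Submodule.span_induction with
  | mem x hx =>
    obtain ⟨g, rfl⟩ := hx
    exact hU g v hv
  | zero => simp
  | add x y _ _ ihx ihy =>
    rw [LinearMap.add_apply]
    exact U.add_mem ihx ihy
  | smul c x _ ih =>
    rw [LinearMap.smul_apply]
    exact U.smul_mem c ih

/-- a stable subspace as a submodule over the image algebra -/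
def IsStable.toSub {U : Submodule F V} (hU : IsStable r U) : Submodule (imgAlg r) V where
  carrier := U
  add_mem' := U.add_mem
  zero_mem' := U.zero_mem
  smul_mem' := fun x _ hv => hU.apply_mem (mem_span_of_mem_imgAlg r x.2) hv

theorem IsStable.mem_toSub {U : Submodule F V} (hU : IsStable r U) {v : V} :
    v ∈ hU.toSub ↔ v ∈ U := Iff.rfl

variable (r)

theorem exists_minimal_stable [Finite V] [Nontrivial V] :
    ∃ W : Submodule F V, W ≠ ⊥ ∧ IsStable r W ∧
      ∀ U : Submodule F V, IsStable r U → U ≤ W → U = ⊥ ∨ U = W := by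
  haveI : IsArtinian F V := isArtinian_of_finite
  have hwf : WellFounded ((· < ·) : Submodule F V → Submodule F V → Prop) := wellFounded_lt
  obtain ⟨W, ⟨hWne, hWs⟩, hWmin⟩ := hwf.has_min {U : Submodule F V | U ≠ ⊥ ∧ IsStable r U}
    ⟨⊤, top_ne_bot, fun _ _ _ => Submodule.mem_top⟩
  refine ⟨W, hWne, hWs, fun U hU hUW => ?_⟩
  by_cases hU0 : U = ⊥
  · exact Or.inl hU0
  · right
    by_contra hne
    exact hWmin U ⟨hU0, hU⟩ (lt_of_le_of_ne hUW hne)

variable {r}

theorem isSimpleModule_toSub {W : Submodule F V} (hne : W ≠ ⊥) (hW : IsStable r W)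
    (hmin : ∀ U : Submodule F V, IsStable r U → U ≤ W → U = ⊥ ∨ U = W) :
    IsSimpleModule (imgAlg r) hW.toSub := by
  rw [isSimpleModule_iff_isAtom]
  refine ⟨fun h => hne ?_, fun U hU => ?_⟩
  · rw [eq_bot_iff]
    intro v hv
    have : v ∈ hW.toSub := hv
    rw [h] at this
    exact this
  · have hUs : IsStable r (U.restrictScalars F) := by
      intro g v hv
      have : (⟨r g, Algebra.subset_adjoin ⟨g, rfl⟩⟩ : imgAlg r) • v ∈ U := U.smul_mem _ hv
      exact this
    have hUW : U.restrictScalars F ≤ W := fun v hv => hU.le hv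
    rcases hmin _ hUs hUW with h | h
    · rw [eq_bot_iff]
      intro v hv
      have : v ∈ U.restrictScalars F := hv
      rw [h] at this
      exact this
    · exfalso
      apply hU.ne
      apply le_antisymm hU.le
      intro v hv
      have : v ∈ W := hv
      rw [← h] at this
      exact this

/-- the two incarnations of a stable subspace are linearly equivalent -/
def IsStable.toSubEquiv {W : Submodule F V} (hW : IsStable r W) : hW.toSub ≃ₗ[F] W where
  toFun v := ⟨v.1, v.2⟩
  invFun v := ⟨v.1, v.2⟩
  map_add' _ _ := rfl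
  map_smul' _ _ := rfl
  left_inv _ := rfl
  right_inv _ := rfl

end Asm

section Main

variable {G : Type*} [Group G] {F : Type*} [Field F] [Finite F]
  {V : Type*} [AddCommGroup V] [Module F V] [Module.Finite F V] [Nontrivial V]
  {r : Representation F G V} {δ : G →* Fˣ} {a : G → F}

/-- **BLR extraction**, relation in the endomorphism ring. -/
theorem exists_rep_of_rel (h2 : (2 : F) ≠ 0) (hrel : Rel r δ a) :
    ∃ ρ : G →* GL (Fin 2) F, SemisimpleRep ρ ∧
      (∀ g : G, Matrix.trace ((ρ g : GL (Fin 2) F) : Matrix (Fin 2) (Fin 2) F) = a g ∧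
        Matrix.det ((ρ g : GL (Fin 2) F) : Matrix (Fin 2) (Fin 2) F) = δ g) ∧
      ∀ g : G, r g = 1 → δ g = 1 → ρ g = 1 := by
  haveI : Finite V := Module.finite_of_finite F
  obtain ⟨W, hne, hW, hmin⟩ := exists_minimal_stable r
  haveI := isSimpleModule_toSub hne hW hmin
  have hle : Module.finrank F hW.toSub ≤ 2 := by
    refine finrank_le_two_of_quadratic (F := F) (R := imgAlg r) (W := hW.toSub) ?_
    intro x
    obtain ⟨t, n, hx⟩ := quadratic_of_mem_span h2 hrel (x : Module.End F V)
      (mem_span_of_mem_imgAlg r x.2)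
    refine ⟨t, n, fun w => Subtype.ext ?_⟩
    have := congrArg (fun f : Module.End F V => f (w : V)) hx
    simp only [Module.End.mul_apply, LinearMap.sub_apply, LinearMap.smul_apply,
      Module.End.one_apply] at this
    exact this
  have hle' : Module.finrank F W ≤ 2 := by
    rw [← hW.toSubEquiv.finrank_eq]
    exact hle
  have hpos : 0 < Module.finrank F W := by
    haveI : Nontrivial W := (Submodule.nontrivial_iff_ne_bot).mpr hne
    exact Module.finrank_pos
  have h12 : Module.finrank F W = 1 ∨ Module.finrank F W = 2 := by omega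
  rcases h12 with h | h
  · exact exists_rep_of_finrank_one hrel hW h
  · obtain ⟨ρ, h1, h2', h3⟩ := exists_rep_of_finrank_two hrel hW hmin h
    exact ⟨ρ, h1, h2', fun g hg _ => h3 g hg⟩

/-- **BLR extraction** (exit literal).  Every `g` satisfies SOME relation `g² - a g + δ(g) = 0` on
`V ≠ 0`; the constant `a` is then unique and is the trace of `ρ(g)`. -/
theorem exists_rep (h2 : (2 : F) ≠ 0) (r : Representation F G V) (δ : G →* Fˣ)
    (hrel : ∀ g : G, ∃ a : F, ∀ v : V, r g (r g v) - a • r g v + (δ g : F) • v = 0) :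
    ∃ ρ : G →* GL (Fin 2) F, SemisimpleRep ρ ∧
      (∀ (g : G) (a : F), (∀ v : V, r g (r g v) - a • r g v + (δ g : F) • v = 0) →
        Matrix.trace ((ρ g : GL (Fin 2) F) : Matrix (Fin 2) (Fin 2) F) = a ∧
          Matrix.det ((ρ g : GL (Fin 2) F) : Matrix (Fin 2) (Fin 2) F) = δ g) ∧
      ∀ g : G, r g = 1 → δ g = 1 → ρ g = 1 := by
  choose a₀ ha₀ using hrel
  have hR : Rel r δ a₀ := by
    intro g
    ext v
    simpa using ha₀ g v
  obtain ⟨ρ, hss, htd, hker⟩ := exists_rep_of_rel h2 hR
  refine ⟨ρ, hss, fun g a ha => ?_, hker⟩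
  have haa : a = a₀ g := by
    obtain ⟨v, hv⟩ := exists_ne (0 : V)
    have hgv : r g v ≠ 0 := by
      intro h0
      apply hv
      have : r g⁻¹ (r g v) = v := by
        rw [← Module.End.mul_apply, ← map_mul, inv_mul_cancel, map_one]
        rfl
      rw [← this, h0, map_zero]
    have h1 := ha v
    have h2' := ha₀ g v
    have : (a - a₀ g) • r g v = 0 := by
      rw [sub_smul]
      have := congrArg₂ (· - ·) h2' h1
      simp only [sub_self] at this
      rw [← this]
      abel
    rcases smul_eq_zero.mp this with h | h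
    · exact sub_eq_zero.mp h
    · exact absurd h hgv
  rw [haa]
  exact htd g

end Main

section Galois

local notation "Γℚ" => (AlgebraicClosure ℚ ≃ₐ[ℚ] AlgebraicClosure ℚ)

/-- `ρ` factors through a finite level as soon as `V` and `δ` do. -/
theorem factorsThroughFiniteLevel {F : Type} [Field F] {V : Type} [AddCommGroup V] [Module F V]
    {r : Representation F Γℚ V} {δ : Γℚ →* Fˣ} {ρ : Γℚ →* GL (Fin 2) F}
    (hr : GaloisFactorsThroughFiniteLevel r) (hδ : GaloisFactorsThroughFiniteLevel δ)
    (hker : ∀ σ : Γℚ, r σ = 1 → δ σ = 1 → ρ σ = 1) : GaloisFactorsThroughFiniteLevel ρ := by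
  obtain ⟨L₁, hL₁, h₁⟩ := hr
  obtain ⟨L₂, hL₂, h₂⟩ := hδ
  haveI := hL₁
  haveI := hL₂
  refine ⟨L₁ ⊔ L₂, inferInstance, fun σ hσ => hker σ (h₁ σ fun x hx => hσ x ?_)
    (h₂ σ fun x hx => hσ x ?_)⟩
  · exact (le_sup_left : L₁ ≤ L₁ ⊔ L₂) hx
  · exact (le_sup_right : L₂ ≤ L₁ ⊔ L₂) hx

/-- **The form consumed by `Contracts36.ResidualAttach`**: `F = ZMod ℓ`, `ℓ` odd, `G = G_ℚ`. -/
theorem exists_galoisRep (ℓ : ℕ) [Fact ℓ.Prime] (hℓ : ℓ ≠ 2)
    {V : Type} [AddCommGroup V] [Module (ZMod ℓ) V] [Module.Finite (ZMod ℓ) V] [Nontrivial V]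
    (r : Representation (ZMod ℓ) Γℚ V) (δ : Γℚ →* (ZMod ℓ)ˣ)
    (hr : GaloisFactorsThroughFiniteLevel r) (hδ : GaloisFactorsThroughFiniteLevel δ)
    (hrel : ∀ σ : Γℚ, ∃ a : ZMod ℓ, ∀ v : V, r σ (r σ v) - a • r σ v + (δ σ : ZMod ℓ) • v = 0) :
    ∃ ρ : Γℚ →* GL (Fin 2) (ZMod ℓ), GaloisFactorsThroughFiniteLevel ρ ∧ SemisimpleRep ρ ∧
      (∀ (σ : Γℚ) (a : ZMod ℓ),
        (∀ v : V, r σ (r σ v) - a • r σ v + (δ σ : ZMod ℓ) • v = 0) →
        Matrix.trace ((ρ σ : GL (Fin 2) (ZMod ℓ)) : Matrix (Fin 2) (Fin 2) (ZMod ℓ)) = a ∧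
          Matrix.det ((ρ σ : GL (Fin 2) (ZMod ℓ)) : Matrix (Fin 2) (Fin 2) (ZMod ℓ)) = δ σ) ∧
      ∀ σ : Γℚ, r σ = 1 → δ σ = 1 → ρ σ = 1 := by
  have h2 : (2 : ZMod ℓ) ≠ 0 := by
    intro h
    have h' : ((2 : ℕ) : ZMod ℓ) = 0 := by exact_mod_cast h
    rw [ZMod.natCast_eq_zero_iff] at h'
    have hp : ℓ.Prime := Fact.out
    exact hℓ ((Nat.prime_dvd_prime_iff_eq hp Nat.prime_two).mp h')
  obtain ⟨ρ, hss, htd, hker⟩ := exists_rep h2 r δ hrel
  exact ⟨ρ, factorsThroughFiniteLevel hr hδ hker, hss, htd, hker⟩

end Galois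

end Fermat.Agent.DS.G1.BLR19
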