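/-
Programme G1 (S48 = Deligne–Serre), brick B5/W4 -- helper40.

**The mod-`N` cyclotomic character of `G_ℚ` and the determinant character `δ = ē ∘ χ_N`.**

* `cycloN N : G_ℚ →* (ZMod N)ˣ` (Mathlib's `modularCyclotomicCharacter` on `ℚ̄`), with
  `σ ζ = ζ ^ (χ_N σ).val` for `ζ ^ N = 1`;
* `cycloN_of_isFrobeniusAt` : `χ_N(σ) = p` for a Frobenius element at `A | p`, `p ∤ N`;
* `cycloN_of_mem_inertia`   : `χ_N(τ) = 1` on the inertia group at `A | q`, `q ∤ N`;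
* `exists_level_cycloN`     : `χ_N` is trivial on the fixer of the finite extension `ℚ(ζ_N)`;
* `detChar e := e ∘ χ_N : G_ℚ →* Mˣ`-valued (any monoid hom `e : (ZMod N)ˣ →* M`), with the three
  corresponding properties.  For `e = ε̄` (the reduction mod `λ` of the nebentypus of a weight-one
  form) this is the determinant character of the residual representation of Deligne–Serre.

The generic valuation lemmas are those of helper8's `ES/J/CycloChar8` (prime-power case).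
-/
import Mathlib
import Fermat.Agent.ES.J.CycloChar8

set_option autoImplicit false

noncomputable section

namespace Fermat.Agent.DS.G1.DetChar40

open Fermat.Agent.ES.J.CycloChar8

local notation "Qb" => AlgebraicClosure ℚ

variable (N : ℕ) [NeZero N]

theorem exists_primitiveRootN : ∃ ζ : Qb, IsPrimitiveRoot ζ N :=
  HasEnoughRootsOfUnity.exists_primitiveRoot Qb N

theorem card_rootsOfUnityN : Nat.card { x // x ∈ rootsOfUnity N Qb } = N := by
  obtain ⟨ζ, hζ⟩ := exists_primitiveRootN N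
  exact hζ.card_rootsOfUnity

/-- **The mod-`N` cyclotomic character** of `G_ℚ`. -/
def cycloN : (Qb ≃ₐ[ℚ] Qb) →* (ZMod N)ˣ :=
  (modularCyclotomicCharacter Qb (card_rootsOfUnityN N)).comp
    (MulSemiringAction.toRingAut (Qb ≃ₐ[ℚ] Qb) Qb)

theorem cycloN_spec (σ : Qb ≃ₐ[ℚ] Qb) {ζ : Qb} (hζ : ζ ^ N = 1) :
    σ ζ = ζ ^ ((cycloN N σ : (ZMod N)ˣ) : ZMod N).val := by
  have hN : N ≠ 0 := NeZero.ne N
  have hζ0 : ζ ≠ 0 := by
    rintro rfl
    rw [zero_pow hN] at hζ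
    exact zero_ne_one hζ
  set u : Qbˣ := Units.mk0 ζ hζ0 with hu
  have hmem : u ∈ rootsOfUnity N Qb := by
    rw [mem_rootsOfUnity]
    apply Units.ext
    simpa [hu] using hζ
  have := modularCyclotomicCharacter.spec Qb (card_rootsOfUnityN N)
    (MulSemiringAction.toRingAut (Qb ≃ₐ[ℚ] Qb) Qb σ) hmem
  simpa [hu, cycloN] using this

/-- the character is determined on one primitive `N`-th root of unity. -/
theorem cycloN_eq_of_primitive {σ : Qb ≃ₐ[ℚ] Qb} {ζ : Qb} (hζ : IsPrimitiveRoot ζ N) {m : ℕ}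
    (h : σ ζ = ζ ^ m) : ((cycloN N σ : (ZMod N)ˣ) : ZMod N) = (m : ZMod N) := by
  have h1 := cycloN_spec N σ hζ.pow_eq_one
  rw [h] at h1
  have h2 : m ≡ ((cycloN N σ : (ZMod N)ˣ) : ZMod N).val [MOD N] :=
    modEq_of_pow_eq_pow hζ (NeZero.ne N) h1
  have h3 := (ZMod.natCast_eq_natCast_iff _ _ _).mpr h2
  rw [h3, ZMod.natCast_zmod_val]

/-- **`χ_N(σ) = p`** for a Frobenius element at `A | p`, `p ∤ N`. -/
theorem cycloN_of_isFrobeniusAt {p : ℕ} (hp : p.Prime) (hpN : ¬ p ∣ N) (A : ValuationSubring Qb)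
    (hA : A.LiesOverPrime p) {σ : Qb ≃ₐ[ℚ] Qb} (hσ : A.IsFrobeniusAt σ p) :
    ((cycloN N σ : (ZMod N)ˣ) : ZMod N) = (p : ZMod N) := by
  obtain ⟨ζ, hζ⟩ := exists_primitiveRootN N
  have hN : N ≠ 0 := NeZero.ne N
  have hζ0 : ζ ≠ 0 := hζ.ne_zero hN
  have hζA : ζ ∈ A := mem_of_pow_eq_one hN hζ.pow_eq_one
  have h1 := frob_apply_sub_pow_mem_nonunits hσ hζA
  have hσζ : (σ ζ) ^ N = 1 := by rw [← map_pow, hζ.pow_eq_one, map_one]
  have hη : (σ ζ * (ζ ^ p)⁻¹) ^ N = 1 := by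
    rw [mul_pow, hσζ, inv_pow, ← pow_mul, mul_comm p, pow_mul, hζ.pow_eq_one, one_pow, inv_one,
      mul_one]
  have hvinv : A.valuation ((ζ ^ p)⁻¹) = 1 := by
    rw [map_inv₀, map_pow, valuation_eq_one_of_pow_eq_one hN hζ.pow_eq_one, one_pow, inv_one]
  have hη1 : σ ζ * (ζ ^ p)⁻¹ - 1 ∈ A.nonunits := by
    have e : σ ζ * (ζ ^ p)⁻¹ - 1 = (σ ζ - ζ ^ p) * (ζ ^ p)⁻¹ := by
      rw [sub_mul, mul_inv_cancel₀ (pow_ne_zero _ hζ0)]
    rw [e, ValuationSubring.mem_nonunits_iff, map_mul, hvinv, mul_one]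
    exact (ValuationSubring.mem_nonunits_iff (A := A)).mp h1
  have h2 := eq_one_of_sub_one_mem_nonunits hp hA hpN hη hη1
  have h3 : σ ζ = ζ ^ p := by
    have := congrArg (· * ζ ^ p) h2
    simpa [mul_assoc, inv_mul_cancel₀ (pow_ne_zero p hζ0)] using this
  exact cycloN_eq_of_primitive N hζ h3

/-- **`χ_N(τ) = 1`** on the inertia group at `A | q`, `q ∤ N`. -/
theorem cycloN_of_mem_inertia {q : ℕ} (hq : q.Prime) (hqN : ¬ q ∣ N) (A : ValuationSubring Qb)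
    (hA : A.LiesOverPrime q) {τ : Qb ≃ₐ[ℚ] Qb} (hτ : τ ∈ A.inertiaSubgroupIn ℚ) :
    cycloN N τ = 1 := by
  obtain ⟨ζ, hζ⟩ := exists_primitiveRootN N
  have hN : N ≠ 0 := NeZero.ne N
  have hζ0 : ζ ≠ 0 := hζ.ne_zero hN
  have hζA : ζ ∈ A := mem_of_pow_eq_one hN hζ.pow_eq_one
  have h1 := Fermat.Agent.S05.Inertia.apply_sub_mem_nonunits hτ hζA
  have hτζ : (τ ζ) ^ N = 1 := by rw [← map_pow, hζ.pow_eq_one, map_one]
  have hη : (τ ζ * ζ⁻¹) ^ N = 1 := by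
    rw [mul_pow, hτζ, inv_pow, hζ.pow_eq_one, inv_one, mul_one]
  have hvinv : A.valuation (ζ⁻¹) = 1 := by
    rw [map_inv₀, valuation_eq_one_of_pow_eq_one hN hζ.pow_eq_one, inv_one]
  have hη1 : τ ζ * ζ⁻¹ - 1 ∈ A.nonunits := by
    have e : τ ζ * ζ⁻¹ - 1 = (τ ζ - ζ) * ζ⁻¹ := by
      rw [sub_mul, mul_inv_cancel₀ hζ0]
    rw [e, ValuationSubring.mem_nonunits_iff, map_mul, hvinv, mul_one]
    exact (ValuationSubring.mem_nonunits_iff (A := A)).mp h1
  have h2 := eq_one_of_sub_one_mem_nonunits hq hA hqN hη hη1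
  have h3 : τ ζ = ζ ^ 1 := by
    have := congrArg (· * ζ) h2
    simpa [mul_assoc, inv_mul_cancel₀ hζ0] using this
  apply Units.ext
  rw [cycloN_eq_of_primitive N hζ h3, Nat.cast_one, Units.val_one]

/-- **finite level**: `χ_N` is trivial on the fixer of `ℚ(ζ_N)`. -/
theorem exists_level_cycloN :
    ∃ L : IntermediateField ℚ Qb, FiniteDimensional ℚ L ∧
      ∀ σ : Qb ≃ₐ[ℚ] Qb, (∀ x ∈ L, σ x = x) → cycloN N σ = 1 := by
  obtain ⟨ζ, hζ⟩ := exists_primitiveRootN N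
  have hN : N ≠ 0 := NeZero.ne N
  refine ⟨IntermediateField.adjoin ℚ {ζ},
    IntermediateField.adjoin.finiteDimensional
      ((hζ.isIntegral (Nat.pos_of_ne_zero hN)).tower_top), ?_⟩
  intro σ hσ
  have h3 : σ ζ = ζ ^ 1 := by
    rw [pow_one]
    exact hσ ζ (IntermediateField.mem_adjoin_simple_self ℚ ζ)
  apply Units.ext
  rw [cycloN_eq_of_primitive N hζ h3, Nat.cast_one, Units.val_one]

/-! ### the determinant character -/

section Det

variable {N}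
variable {M : Type*} [Monoid M] (e : (ZMod N)ˣ →* M)

/-- **The determinant character** `δ = e ∘ χ_N`. -/
def detChar : (Qb ≃ₐ[ℚ] Qb) →* M := e.comp (cycloN N)

theorem detChar_apply (σ : Qb ≃ₐ[ℚ] Qb) : detChar e σ = e (cycloN N σ) := rfl

/-- `δ(σ) = e(p)` for a Frobenius element at `A | p`, `p ∤ N`. -/
theorem detChar_of_isFrobeniusAt {p : ℕ} (hp : p.Prime) (hpN : ¬ p ∣ N)
    (A : ValuationSubring Qb) (hA : A.LiesOverPrime p) {σ : Qb ≃ₐ[ℚ] Qb}
    (hσ : A.IsFrobeniusAt σ p) (u : (ZMod N)ˣ) (hu : (u : ZMod N) = (p : ZMod N)) :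
    detChar e σ = e u := by
  rw [detChar_apply]
  congr 1
  apply Units.ext
  rw [cycloN_of_isFrobeniusAt N hp hpN A hA hσ, hu]

/-- `δ(τ) = 1` on the inertia group at `A | q`, `q ∤ N`. -/
theorem detChar_of_mem_inertia {q : ℕ} (hq : q.Prime) (hqN : ¬ q ∣ N) (A : ValuationSubring Qb)
    (hA : A.LiesOverPrime q) {τ : Qb ≃ₐ[ℚ] Qb} (hτ : τ ∈ A.inertiaSubgroupIn ℚ) :
    detChar e τ = 1 := by
  rw [detChar_apply, cycloN_of_mem_inertia N hq hqN A hA hτ, map_one]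

/-- `δ` has finite level. -/
theorem exists_level_detChar :
    ∃ L : IntermediateField ℚ Qb, FiniteDimensional ℚ L ∧
      ∀ σ : Qb ≃ₐ[ℚ] Qb, (∀ x ∈ L, σ x = x) → detChar e σ = 1 := by
  obtain ⟨L, hL, h⟩ := exists_level_cycloN N
  exact ⟨L, hL, fun σ hσ => by rw [detChar_apply, h σ hσ, map_one]⟩

end Det

end Fermat.Agent.DS.G1.DetChar40
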