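/-
Programme G1 (S48), chapter B2-an, brick (an2) — helper48.

**The finite Fourier transform of `x / (1 - x)²` over the nontrivial `M`-th roots of unity.**

`K` a field of characteristic zero, `ζ` a primitive `M`-th root of unity, `u_b = ζ ^ b` (`1 ≤ b < M`):

* `sum_inv_pow_div`    : `∑_b u_b^{-c} / (1 - u_b) = (M - 1)/2 - c`                 (`0 ≤ c < M`);
* `sum_inv_pow_mul_wp` : `∑_b u_b^{-c} · u_b / (1 - u_b)² = -(M² - 1)/12 + c (M - c)/2`   (`0 ≤ c ≤ M`);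
* `eisTwoConst_eq`     : `(1/M) ∑_b u_b^{-c} (1/12 + u_b / (1 - u_b)²) = -M/12 + c (M - c)/(2M)` (`0 < c < M`),
  the constant term of the weight-2 Eisenstein series `EE_c` of `DS/G1/FieldDefs62` (`eisTwoConst`),
  obtained from the constant term `1/12 + w/(1 - w)²` of `℘(u)/(2πi)²` at `w = ζ ^ b`.

Proof: telescoping in `c` (`S(c+1) = S(c) + T(c)`, `T(c+1) = T(c) - 1`) and `∑_c S(c) = ∑_c T(c) = 0`
(orthogonality: `∑_{c < M} v^c = 0` for `v ≠ 1`, `v^M = 1`).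
-/
import Mathlib

set_option autoImplicit false

namespace Fermat.Agent.DS.G1.DftWp48

open Finset

variable {K : Type*} [Field K]

/-! ### Orthogonality -/

/-- `∑_{c < M} v^c = 0` for an `M`-th root of unity `v ≠ 1`. -/
theorem geom_sum_eq_zero_of_pow_eq_one {v : K} {M : ℕ} (hv : v ^ M = 1) (hv1 : v ≠ 1) :
    ∑ c ∈ range M, v ^ c = 0 := by
  have h := geom_sum_mul v M
  rw [hv, sub_self] at h
  exact (mul_eq_zero.mp h).resolve_right (sub_ne_zero.mpr hv1)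

variable {M : ℕ} {ζ : K}

theorem pow_ne_one_of_mem (hζ : IsPrimitiveRoot ζ M) {b : ℕ} (hb : b ∈ Ico 1 M) : ζ ^ b ≠ 1 := by
  have h := mem_Ico.mp hb
  exact hζ.pow_ne_one_of_pos_of_lt (by omega) h.2

theorem pow_ne_zero_of_mem (hζ : IsPrimitiveRoot ζ M) (hM : 0 < M) (b : ℕ) : ζ ^ b ≠ 0 :=
  pow_ne_zero b (hζ.ne_zero hM.ne')

theorem inv_pow_pow_eq_one (hζ : IsPrimitiveRoot ζ M) (b : ℕ) : ((ζ ^ b)⁻¹) ^ M = 1 := by
  rw [inv_pow, ← pow_mul, mul_comm, pow_mul, hζ.pow_eq_one, one_pow, inv_one]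

theorem inv_pow_ne_one (hζ : IsPrimitiveRoot ζ M) {b : ℕ} (hb : b ∈ Ico 1 M) : (ζ ^ b)⁻¹ ≠ 1 := by
  intro h
  exact pow_ne_one_of_mem hζ hb (inv_eq_one.mp h)

/-- `∑_{1 ≤ b < M} u_b^{-k} = -1` when `M ∤ k`. -/
theorem sum_inv_pow (hζ : IsPrimitiveRoot ζ M) (hM : 0 < M) {k : ℕ} (hk : ¬ M ∣ k) :
    ∑ b ∈ Ico 1 M, ((ζ ^ b)⁻¹) ^ k = -1 := by
  have hζ' : IsPrimitiveRoot ζ⁻¹ M := hζ.inv
  have hv1 : (ζ⁻¹) ^ k ≠ 1 := fun h => hk ((hζ'.pow_eq_one_iff_dvd k).mp h)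
  have hvM : ((ζ⁻¹) ^ k) ^ M = 1 := by
    rw [← pow_mul, mul_comm, pow_mul, hζ'.pow_eq_one, one_pow]
  have h0 := geom_sum_eq_zero_of_pow_eq_one hvM hv1
  rw [range_eq_Ico, sum_eq_sum_Ico_succ_bot hM, pow_zero, zero_add] at h0
  have h1 : ∑ b ∈ Ico 1 M, ((ζ ^ b)⁻¹) ^ k = ∑ b ∈ Ico 1 M, ((ζ⁻¹) ^ k) ^ b := by
    refine sum_congr rfl fun b _ => ?_
    rw [← inv_pow, ← pow_mul, ← pow_mul, mul_comm]
  rw [h1]
  linear_combination h0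

/-! ### The two sums -/

/-- `T(c) = ∑_b u_b^{-c} / (1 - u_b)`. -/
noncomputable def T (ζ : K) (M c : ℕ) : K := ∑ b ∈ Ico 1 M, ((ζ ^ b)⁻¹) ^ c / (1 - ζ ^ b)

/-- `S(c) = ∑_b u_b^{-c} · u_b / (1 - u_b)²`. -/
noncomputable def S (ζ : K) (M c : ℕ) : K :=
  ∑ b ∈ Ico 1 M, ((ζ ^ b)⁻¹) ^ c * (ζ ^ b / (1 - ζ ^ b) ^ 2)

/-- `T(c) - T(c+1) = 1` for `c + 1 < M`. -/
theorem T_succ (hζ : IsPrimitiveRoot ζ M) (hM : 0 < M) {c : ℕ} (hc : c + 1 < M) :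
    T ζ M (c + 1) = T ζ M c - 1 := by
  have hk : ¬ M ∣ c + 1 := fun h => by
    have := Nat.le_of_dvd (Nat.succ_pos c) h
    omega
  have hsum := sum_inv_pow hζ hM hk
  have hterm : ∀ b ∈ Ico 1 M, ((ζ ^ b)⁻¹) ^ (c + 1) / (1 - ζ ^ b) =
      ((ζ ^ b)⁻¹) ^ c / (1 - ζ ^ b) + ((ζ ^ b)⁻¹) ^ (c + 1) := by
    intro b hb
    have h1 : (1 : K) - ζ ^ b ≠ 0 := sub_ne_zero.mpr (pow_ne_one_of_mem hζ hb).symm
    have h0 : ζ ^ b ≠ 0 := pow_ne_zero_of_mem hζ hM b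
    rw [pow_succ]
    field_simp
    ring
  unfold T
  rw [sum_congr rfl hterm, sum_add_distrib, hsum]
  ring

/-- `T(c) = T(0) - c` for `c < M`. -/
theorem T_eq (hζ : IsPrimitiveRoot ζ M) (hM : 0 < M) : ∀ c : ℕ, c < M → T ζ M c = T ζ M 0 - c := by
  intro c
  induction c with
  | zero => intro _; simp
  | succ c ih =>
    intro hc
    rw [T_succ hζ hM hc, ih (by omega)]
    push_cast
    ring

/-- `∑_{c < M} T(c) = 0`. -/
theorem sum_T (hζ : IsPrimitiveRoot ζ M) : ∑ c ∈ range M, T ζ M c = 0 := by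
  unfold T
  rw [sum_comm]
  refine sum_eq_zero fun b hb => ?_
  rw [← sum_div, geom_sum_eq_zero_of_pow_eq_one (inv_pow_pow_eq_one hζ b) (inv_pow_ne_one hζ hb),
    zero_div]

theorem sum_range_cast (n : ℕ) [CharZero K] : ∑ c ∈ range n, (c : K) = (n : K) * ((n : K) - 1) / 2 := by
  induction n with
  | zero => simp
  | succ n ih =>
    rw [sum_range_succ, ih]
    push_cast
    ring

variable [CharZero K]

/-- `T(0) = (M - 1)/2`. -/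
theorem T_zero (hζ : IsPrimitiveRoot ζ M) (hM : 0 < M) : T ζ M 0 = ((M : K) - 1) / 2 := by
  have h := sum_T hζ
  rw [sum_congr rfl (fun c hc => T_eq hζ hM c (mem_range.mp hc)), sum_sub_distrib, sum_const,
    card_range, sum_range_cast, nsmul_eq_mul] at h
  have hM0 : (M : K) ≠ 0 := Nat.cast_ne_zero.mpr hM.ne'
  have h2 : (M : K) * (T ζ M 0 - ((M : K) - 1) / 2) = 0 := by linear_combination h
  have := (mul_eq_zero.mp h2).resolve_left hM0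
  linear_combination this

/-- **`∑_b u_b^{-c} / (1 - u_b) = (M - 1)/2 - c`** for `0 ≤ c < M`. -/
theorem sum_inv_pow_div (hζ : IsPrimitiveRoot ζ M) (hM : 0 < M) (c : ℕ) (hc : c < M) :
    ∑ b ∈ Ico 1 M, ((ζ ^ b)⁻¹) ^ c / (1 - ζ ^ b) = ((M : K) - 1) / 2 - c := by
  have := T_eq hζ hM c hc
  rw [T_zero hζ hM] at this
  exact this

omit [CharZero K] in
/-- `S(c+1) = S(c) + T(c)`. -/
theorem S_succ (hζ : IsPrimitiveRoot ζ M) (hM : 0 < M) (c : ℕ) :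
    S ζ M (c + 1) = S ζ M c + T ζ M c := by
  have hterm : ∀ b ∈ Ico 1 M, ((ζ ^ b)⁻¹) ^ (c + 1) * (ζ ^ b / (1 - ζ ^ b) ^ 2) =
      ((ζ ^ b)⁻¹) ^ c * (ζ ^ b / (1 - ζ ^ b) ^ 2) + ((ζ ^ b)⁻¹) ^ c / (1 - ζ ^ b) := by
    intro b hb
    have h1 : (1 : K) - ζ ^ b ≠ 0 := sub_ne_zero.mpr (pow_ne_one_of_mem hζ hb).symm
    have h0 : ζ ^ b ≠ 0 := pow_ne_zero_of_mem hζ hM b
    rw [pow_succ]
    field_simp
    ring
  unfold S T
  rw [sum_congr rfl hterm, sum_add_distrib]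

/-- `S(c) = S(0) + c (M - c)/2` for `c ≤ M`. -/
theorem S_eq (hζ : IsPrimitiveRoot ζ M) (hM : 0 < M) :
    ∀ c : ℕ, c ≤ M → S ζ M c = S ζ M 0 + (c : K) * ((M : K) - c) / 2 := by
  intro c
  induction c with
  | zero => intro _; simp
  | succ c ih =>
    intro hc
    rw [S_succ hζ hM, ih (by omega), T_eq hζ hM c (by omega), T_zero hζ hM]
    push_cast
    ring

omit [CharZero K] in
/-- `∑_{c < M} S(c) = 0`. -/
theorem sum_S (hζ : IsPrimitiveRoot ζ M) : ∑ c ∈ range M, S ζ M c = 0 := by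
  unfold S
  rw [sum_comm]
  refine sum_eq_zero fun b hb => ?_
  rw [← sum_mul, geom_sum_eq_zero_of_pow_eq_one (inv_pow_pow_eq_one hζ b) (inv_pow_ne_one hζ hb),
    zero_mul]

theorem sum_range_mul_sub (m : K) (n : ℕ) :
    ∑ c ∈ range n, (c : K) * (m - c) / 2 =
      (m * (n * ((n : K) - 1) / 2) - ((n : K) - 1) * n * (2 * n - 1) / 6) / 2 := by
  induction n with
  | zero => simp
  | succ n ih =>
    rw [sum_range_succ, ih]
    push_cast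
    ring

/-- `S(0) = -(M² - 1)/12`. -/
theorem S_zero (hζ : IsPrimitiveRoot ζ M) (hM : 0 < M) : S ζ M 0 = -(((M : K) ^ 2 - 1) / 12) := by
  have h := sum_S hζ
  rw [sum_congr rfl (fun c hc => S_eq hζ hM c (mem_range.mp hc).le), sum_add_distrib, sum_const,
    card_range, sum_range_mul_sub, nsmul_eq_mul] at h
  have hM0 : (M : K) ≠ 0 := Nat.cast_ne_zero.mpr hM.ne'
  have h2 : (M : K) * (S ζ M 0 + ((M : K) ^ 2 - 1) / 12) = 0 := by linear_combination h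
  have := (mul_eq_zero.mp h2).resolve_left hM0
  linear_combination this

/-- **The finite Fourier transform of `x / (1 - x)²` over the nontrivial `M`-th roots of unity:**
`∑_b u_b^{-c} · u_b / (1 - u_b)² = -(M² - 1)/12 + c (M - c)/2` for `0 ≤ c ≤ M`. -/
theorem sum_inv_pow_mul_wp (hζ : IsPrimitiveRoot ζ M) (hM : 0 < M) (c : ℕ) (hc : c ≤ M) :
    ∑ b ∈ Ico 1 M, ((ζ ^ b)⁻¹) ^ c * (ζ ^ b / (1 - ζ ^ b) ^ 2) =
      -(((M : K) ^ 2 - 1) / 12) + (c : K) * ((M : K) - c) / 2 := by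
  have := S_eq hζ hM c hc
  rw [S_zero hζ hM] at this
  exact this

omit [CharZero K] in
/-- `∑_{1 ≤ b < M} u_b^{-c} = -1` for `0 < c < M`. -/
theorem sum_inv_pow_of_pos_of_lt (hζ : IsPrimitiveRoot ζ M) {c : ℕ} (hc0 : 0 < c) (hc : c < M) :
    ∑ b ∈ Ico 1 M, ((ζ ^ b)⁻¹) ^ c = -1 :=
  sum_inv_pow hζ (by omega) fun h => by
    have := Nat.le_of_dvd hc0 h
    omega

/-- **The constant term of `EE_c`** (`DS/G1/FieldDefs62.eisTwoConst`): for `0 < c < M`,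
`(1/M) ∑_b u_b^{-c} (1/12 + u_b / (1 - u_b)²) = -M/12 + c (M - c)/(2M)`. -/
theorem eisTwoConst_eq (hζ : IsPrimitiveRoot ζ M) {c : ℕ} (hc0 : 0 < c) (hc : c < M) :
    (1 / (M : K)) * ∑ b ∈ Ico 1 M, ((ζ ^ b)⁻¹) ^ c * (1 / 12 + ζ ^ b / (1 - ζ ^ b) ^ 2) =
      -(M : K) / 12 + (c : K) * ((M : K) - c) / (2 * M) := by
  have hM : 0 < M := by omega
  have hM0 : (M : K) ≠ 0 := Nat.cast_ne_zero.mpr hM.ne'
  have h1 : ∑ b ∈ Ico 1 M, ((ζ ^ b)⁻¹) ^ c * (1 / 12 + ζ ^ b / (1 - ζ ^ b) ^ 2) =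
      (1 / 12) * ∑ b ∈ Ico 1 M, ((ζ ^ b)⁻¹) ^ c +
        ∑ b ∈ Ico 1 M, ((ζ ^ b)⁻¹) ^ c * (ζ ^ b / (1 - ζ ^ b) ^ 2) := by
    rw [mul_sum, ← sum_add_distrib]
    exact sum_congr rfl fun b _ => by ring
  rw [h1, sum_inv_pow_of_pos_of_lt hζ hc0 hc, sum_inv_pow_mul_wp hζ hM c hc.le]
  field_simp
  ring

/-- The value at `c = 0`: `(1/M) ∑_b (1/12 + u_b / (1 - u_b)²) = (M - 1)/(12 M) - (M² - 1)/(12 M)`. -/
theorem eisTwoConst_zero (hζ : IsPrimitiveRoot ζ M) (hM : 0 < M) :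
    (1 / (M : K)) * ∑ b ∈ Ico 1 M, (1 / 12 + ζ ^ b / (1 - ζ ^ b) ^ 2) =
      ((M : K) - 1) / (12 * M) - ((M : K) ^ 2 - 1) / (12 * M) := by
  have hM0 : (M : K) ≠ 0 := Nat.cast_ne_zero.mpr hM.ne'
  have h := sum_inv_pow_mul_wp hζ hM 0 (Nat.zero_le M)
  simp only [pow_zero, one_mul, Nat.cast_zero, zero_mul, zero_div, add_zero] at h
  rw [sum_add_distrib, h, sum_const, Nat.card_Ico, nsmul_eq_mul, Nat.cast_sub hM]
  push_cast
  field_simp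
  ring

end Fermat.Agent.DS.G1.DftWp48
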