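/-
Programme G1 (S48 = Deligne–Serre), brick B5/W3 -- helper40.

**The eigen-quotient: "the eigen-system occurs in `J[ℓ]`", and descent of relations.**

Abstract setting (Mathlib only).  `T` is a commutative ring (the Hecke algebra), `Λ` a finitely
generated FAITHFUL `T`-module (the parabolic lattice `H₁(X, ℤ)`; faithful because `Λ ⊗ ℂ` contains the
cusp forms), `F` a field which is a `T`-algebra with `T → F` surjective (the eigen-system of an
eigenform modulo `λ`), `𝔪 = ker (T → F)`, and `M` a `T`-module (`= J(ℚ̄)[ℓ]`) with a `T`-linear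
isomorphism `M ≃ Λ ⧸ N` for a submodule `N ≤ 𝔪 • ⊤` (`N = ℓ • ⊤`: the Kummer system at the single
level `ℓ`).

* `nontrivial_tensor` : `F ⊗[T] M` is NONTRIVIAL (Nakayama on `Λ`).
* `baseChangeRep` : a `T`-linear representation `r` of a group `G` on `M` induces an `F`-linear
  representation on `F ⊗[T] M`.
* `baseChangeRep_rel` : an identity `r g * r g - t • r g + u • 1 = 0` on `M` (`t u : T`, the
  Eichler–Shimura relation `Frob² - T_p Frob + p⟨p⟩ = 0`) becomes
  `R g * R g - θ t • R g + θ u • 1 = 0` on `F ⊗[T] M`, `θ = algebraMap T F`.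
* `baseChangeRep_eq_one` : `r g = 1 → R g = 1`.
-/
import Mathlib

set_option autoImplicit false

open scoped TensorProduct

namespace Fermat.Agent.DS.G1.EigenQuot40

section Nakayama

variable {T : Type*} [CommRing T]

/-- **Nakayama for a faithful finitely generated module**: `I • ⊤ ≠ ⊤` for every proper ideal `I`. -/
theorem smul_top_ne_top_of_faithful {Λ : Type*} [AddCommGroup Λ] [Module T Λ] [Module.Finite T Λ]
    (hfaith : ∀ t : T, (∀ x : Λ, t • x = 0) → t = 0) (I : Ideal T) (hI : I ≠ ⊤) :
    I • (⊤ : Submodule T Λ) ≠ ⊤ := by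
  intro h
  obtain ⟨r, hr1, hr0⟩ := Submodule.exists_sub_one_mem_and_smul_eq_zero_of_fg_of_le_smul I
    (⊤ : Submodule T Λ) Module.Finite.fg_top (by rw [h])
  have hr : r = 0 := hfaith r fun x => hr0 x Submodule.mem_top
  rw [hr, zero_sub] at hr1
  exact hI ((Ideal.eq_top_iff_one I).mpr (by simpa using I.neg_mem hr1))

/-- `I • ⊤ ≠ ⊤` passes to a quotient by a submodule contained in `I • ⊤`. -/
theorem smul_top_ne_top_quotient {Λ : Type*} [AddCommGroup Λ] [Module T Λ] (I : Ideal T)
    (N : Submodule T Λ) (hN : N ≤ I • (⊤ : Submodule T Λ))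
    (h : I • (⊤ : Submodule T Λ) ≠ ⊤) : I • (⊤ : Submodule T (Λ ⧸ N)) ≠ ⊤ := by
  intro hq
  apply h
  have h1 : (I • (⊤ : Submodule T Λ)).map N.mkQ = ⊤ := by
    rw [Submodule.map_smul'', Submodule.map_top, Submodule.range_mkQ]
    exact hq
  have h2 := congrArg (Submodule.comap N.mkQ) h1
  rw [Submodule.comap_map_eq, Submodule.ker_mkQ, Submodule.comap_top, sup_eq_left.mpr hN] at h2
  exact h2

/-- `I • ⊤ ≠ ⊤` pulls back along a surjective linear map. -/
theorem smul_top_ne_top_of_surjective {M P : Type*} [AddCommGroup M] [Module T M]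
    [AddCommGroup P] [Module T P] (f : M →ₗ[T] P) (hf : Function.Surjective f) (I : Ideal T)
    (h : I • (⊤ : Submodule T P) ≠ ⊤) : I • (⊤ : Submodule T M) ≠ ⊤ := by
  intro hM
  apply h
  have := congrArg (Submodule.map f) hM
  rwa [Submodule.map_smul'', Submodule.map_top, LinearMap.range_eq_top.mpr hf] at this

end Nakayama

section Tensor

variable {T : Type*} [CommRing T] {F : Type*} [Field F] [Algebra T F]

/-- `T ⧸ ker (T → F) ≃ F` as `T`-modules, when `T → F` is surjective. -/
noncomputable def quotKerEquiv (hsurj : Function.Surjective (algebraMap T F)) :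
    (T ⧸ RingHom.ker (algebraMap T F)) ≃ₗ[T] F :=
  (Ideal.quotientKerAlgEquivOfSurjective (f := Algebra.ofId T F) hsurj).toLinearEquiv

/-- `F ⊗[T] M` is nontrivial as soon as `𝔪 • ⊤ ≠ ⊤` in `M`, `𝔪 = ker (T → F)`, `T → F` surjective. -/
theorem nontrivial_tensor_of_smul_top_ne_top (hsurj : Function.Surjective (algebraMap T F))
    {M : Type*} [AddCommGroup M] [Module T M]
    (h : RingHom.ker (algebraMap T F) • (⊤ : Submodule T M) ≠ ⊤) : Nontrivial (F ⊗[T] M) := by
  have e₂ : (F ⊗[T] M) ≃ₗ[T] ((T ⧸ RingHom.ker (algebraMap T F)) ⊗[T] M) :=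
    TensorProduct.congr (quotKerEquiv hsurj).symm (LinearEquiv.refl T M)
  have e₃ : ((T ⧸ RingHom.ker (algebraMap T F)) ⊗[T] M) ≃ₗ[T]
      M ⧸ (RingHom.ker (algebraMap T F) • (⊤ : Submodule T M)) :=
    TensorProduct.quotTensorEquivQuotSMul M _
  have : Nontrivial (M ⧸ (RingHom.ker (algebraMap T F) • (⊤ : Submodule T M))) :=
    Submodule.Quotient.nontrivial_iff.mpr h
  exact (e₂.trans e₃).toEquiv.nontrivial

/-- **The eigen-system occurs**: `F ⊗[T] M` is nontrivial when `M ≃ Λ ⧸ N`, `N ≤ 𝔪 • ⊤`, `Λ` finitely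
generated and faithful. -/
theorem nontrivial_tensor (hsurj : Function.Surjective (algebraMap T F))
    {Λ : Type*} [AddCommGroup Λ] [Module T Λ] [Module.Finite T Λ]
    (hfaith : ∀ t : T, (∀ x : Λ, t • x = 0) → t = 0)
    (N : Submodule T Λ) (hN : N ≤ RingHom.ker (algebraMap T F) • (⊤ : Submodule T Λ))
    {M : Type*} [AddCommGroup M] [Module T M] (e : M ≃ₗ[T] Λ ⧸ N) : Nontrivial (F ⊗[T] M) := by
  have hker : RingHom.ker (algebraMap T F) ≠ ⊤ := RingHom.ker_ne_top _
  apply nontrivial_tensor_of_smul_top_ne_top hsurj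
  exact smul_top_ne_top_of_surjective e.toLinearMap e.surjective _
    (smul_top_ne_top_quotient _ N hN (smul_top_ne_top_of_faithful hfaith _ hker))

/-- the case `N = ℓ • ⊤` with `ℓ ∈ 𝔪`. -/
theorem nontrivial_tensor_of_smul (hsurj : Function.Surjective (algebraMap T F))
    {Λ : Type*} [AddCommGroup Λ] [Module T Λ] [Module.Finite T Λ]
    (hfaith : ∀ t : T, (∀ x : Λ, t • x = 0) → t = 0)
    (ℓ : T) (hℓ : algebraMap T F ℓ = 0)
    {M : Type*} [AddCommGroup M] [Module T M]
    (e : M ≃ₗ[T] Λ ⧸ (Ideal.span {ℓ} • (⊤ : Submodule T Λ))) : Nontrivial (F ⊗[T] M) := by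
  refine nontrivial_tensor hsurj hfaith _ ?_ e
  apply Submodule.smul_mono_left
  rw [Ideal.span_singleton_le_iff_mem]
  exact hℓ

end Tensor

section Rep

variable {T : Type*} [CommRing T] (F : Type*) [Field F] [Algebra T F]
  {G : Type*} [Group G] {M : Type*} [AddCommGroup M] [Module T M]

/-- the `F`-linear representation on `F ⊗[T] M` induced by a `T`-linear representation on `M`. -/
noncomputable def baseChangeRep (r : Representation T G M) : Representation F G (F ⊗[T] M) :=
  ((Module.End.baseChangeHom T F M : Module.End T M →ₐ[T] Module.End F (F ⊗[T] M)) :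
    Module.End T M →* Module.End F (F ⊗[T] M)).comp r

@[simp] theorem baseChangeRep_apply (r : Representation T G M) (g : G) :
    baseChangeRep F r g = (r g).baseChange F := rfl

theorem baseChangeRep_tmul (r : Representation T G M) (g : G) (a : F) (x : M) :
    baseChangeRep F r g (a ⊗ₜ x) = a ⊗ₜ r g x := rfl

theorem baseChangeRep_eq_one (r : Representation T G M) {g : G} (h : r g = 1) :
    baseChangeRep F r g = 1 := by
  rw [baseChangeRep_apply, h]
  exact LinearMap.baseChange_one T M

/-- **Descent of the quadratic relation** (Eichler–Shimura on `M` ⇒ on the eigen-quotient). -/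
theorem baseChangeRep_rel (r : Representation T G M) {g : G} {t u : T}
    (h : r g * r g - t • r g + u • (1 : Module.End T M) = 0) :
    baseChangeRep F r g * baseChangeRep F r g - algebraMap T F t • baseChangeRep F r g +
      algebraMap T F u • (1 : Module.End F (F ⊗[T] M)) = 0 := by
  have h1 := congrArg (Module.End.baseChangeHom T F M) h
  rw [map_add, map_sub, map_mul, map_smul, map_smul, map_one, map_zero] at h1
  simp only [baseChangeRep_apply, algebraMap_smul]
  exact h1

end Rep

end Fermat.Agent.DS.G1.EigenQuot40
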