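/-
Programme G1 (Gamma1 stack for S48, board #11), brick B2-defs (helper62).

THE DEFINITIONS of the function field of `X_1(M)` (mu-type model, cusp `∞` rational) inside
`ℚ((q))`, in the style of the Prelude's `modularFunctionFieldFull`:

* `eisTwo M c : PowerSeries ℚ` (`c : ZMod M`, `c ≠ 0`): the weight-2 Eisenstein series
    `EE_c = δ_c + ∑_{n ≥ 1} (∑_{r ∣ n, r ≡ c} r + ∑_{r ∣ n, r ≡ -c} r) q^n`,
    `δ_c = -M/12 + c̃ (M - c̃) / (2M) = -(M/2) B₂(c̃/M)`  (`c̃ = c.val`),
  i.e. `EE_c = (1/M) ∑_{b ≠ 0} ζ^{-bc} ℘(b/M; τ) / (2πi)²`  (DFT of the Weierstrass values at the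
  `M`-torsion points `b/M` of `ℂ/(ℤτ+ℤ)`; absolutely convergent, weight 2 on `Γ₁(M)`).
* `thetaJq : LaurentSeries ℚ` : `θ j = q dj/dq` (same normalisation as `S20/LowDJ.thetaJ`).
* `tGen M c := EE_c / θj` : weight 0, i.e. `EE_c dq/q = t_c dj` (the tree's dictionary
  "weight-2 form `f` ↔ function `h` with `f = h · θj`").  `-j (j - 1728) t_c = EE_c E₄E₆/Δ` is
  holomorphic on `ℍ`.
* `F1 M := ℚ(j(q^d) (d ∣ M), t_c (c ≠ 0)) ≤ ℚ((q))`; contains `modularFunctionFieldFull M` by
  definition.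
* diamond operators: `IsDiamond M d σ` (`σ` fixes `modularFunctionFieldFull M`, `σ t_c = t_{d⁻¹c}`;
  analytically `σ` = slash by `γ ∈ Γ₀(M)` with lower right entry `≡ d`), unique if it exists;
  `diamond M d` (junk value `refl` unless `DiamondExists M d`).
* Hecke correspondence at `p`: the middle field `F1p M p := F1 M ⊔ B_p (F1 M)`
  (`B_p f(q) = f(q^p)`, function field of `X(Γ₁(M) ∩ Γ₀(p))`), the two embeddings
  `heckeAlphaBarOne` (inclusion) and `heckeBetaBarOne` (`q ↦ q^p`) after base change to `L`,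
  `heckeDivBarOne`, `heckePic0BarOne` = literal twins of the Prelude's `heckeDivBar`,
  `heckePic0Bar`.
* `JOne M := Pic0 ℚbar (F1Bar M)` with the Prelude's (generic) arithmetic Galois action, and
  `JOne.torsionGaloisRep`.
No theorem about modular forms is used or needed here: this file only fixes the objects.
-/
import Mathlib
import Fermat.Prelude.Def_ModularCurve_HeckeOperator

set_option autoImplicit false

noncomputable section

namespace Fermat.Agent.DS.G1.Defs62

open ModularCurve HahnSeries IntermediateField AlgebraicCurve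

/-! ### The weight-2 Eisenstein generators -/

/-- The constant term `δ_c = -M/12 + c̃ (M - c̃) / (2M)` of `EE_c` (`c̃ = c.val ∈ [0, M)`). -/
def eisTwoConst (M : ℕ) (c : ZMod M) : ℚ :=
  -(M : ℚ) / 12 + (c.val : ℚ) * ((M : ℚ) - (c.val : ℚ)) / (2 * (M : ℚ))

/-- The `n`-th coefficient (`n ≥ 1`) of `EE_c`: `∑_{r ∣ n} r ([r ≡ c] + [r ≡ -c])`. -/
def eisTwoCoeff (M : ℕ) (c : ZMod M) (n : ℕ) : ℚ :=
  ∑ r ∈ n.divisors,
    ((if ((r : ℕ) : ZMod M) = c then (r : ℚ) else 0) +
      (if ((r : ℕ) : ZMod M) = -c then (r : ℚ) else 0))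

/-- The weight-2 Eisenstein series `EE_c` of level `Γ₁(M)` (mu-type), as a formal `q`-expansion. -/
def eisTwo (M : ℕ) (c : ZMod M) : PowerSeries ℚ :=
  PowerSeries.mk fun n => if n = 0 then eisTwoConst M c else eisTwoCoeff M c n

@[simp]
theorem coeff_zero_eisTwo (M : ℕ) (c : ZMod M) :
    PowerSeries.coeff 0 (eisTwo M c) = eisTwoConst M c := by
  simp [eisTwo]

theorem coeff_eisTwo_of_ne_zero (M : ℕ) (c : ZMod M) {n : ℕ} (hn : n ≠ 0) :
    PowerSeries.coeff n (eisTwo M c) = eisTwoCoeff M c n := by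
  simp [eisTwo, hn]

theorem eisTwoCoeff_neg (M : ℕ) (c : ZMod M) (n : ℕ) :
    eisTwoCoeff M (-c) n = eisTwoCoeff M c n := by
  unfold eisTwoCoeff
  refine Finset.sum_congr rfl fun r _ => ?_
  rw [neg_neg, add_comm]

/-! ### `θ j` over `ℚ` -/

/-- The numerator of `θ j = q d/dq j`: `q · θ j = ∑ (n - 1) cₙ qⁿ`, `cₙ` the coefficients of
`q · j` (same as `S20/LowDJ.thetaNumK`, over `ℚ`). -/
def thetaNumQ : PowerSeries ℚ :=
  PowerSeries.mk fun n => ((n : ℚ) - 1) * PowerSeries.coeff n jNumQ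

theorem coeff_zero_thetaNumQ : PowerSeries.coeff 0 thetaNumQ = -1 := by
  have h : PowerSeries.coeff 0 jNumQ = 1 := by
    rw [PowerSeries.coeff_zero_eq_constantCoeff]; exact constantCoeff_jNumQ
  simp [thetaNumQ, h]

/-- The formal `θ j = q dj/dq ∈ ℚ((q))`. -/
def thetaJq : LaurentSeries ℚ :=
  HahnSeries.single (-1 : ℤ) (1 : ℚ) * HahnSeries.ofPowerSeries ℤ ℚ thetaNumQ

theorem thetaNumQ_ne_zero : thetaNumQ ≠ 0 := by
  intro h
  have := coeff_zero_thetaNumQ
  rw [h] at this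
  simp at this

theorem thetaJq_ne_zero : thetaJq ≠ 0 := by
  unfold thetaJq
  refine mul_ne_zero ?_ ?_
  · intro h
    have := congrArg (fun x : LaurentSeries ℚ => x.coeff (-1)) h
    simp at this
  · intro h
    apply thetaNumQ_ne_zero
    have hinj : Function.Injective (HahnSeries.ofPowerSeries ℤ ℚ) :=
      HahnSeries.ofPowerSeries_injective
    exact hinj (by rw [h, map_zero])

/-! ### The generators `t_c` and the field `F1 M` -/

/-- The generator `t_c = EE_c / θj` of the function field of `X_1(M)`: `EE_c dq/q = t_c dj`. -/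
def tGen (M : ℕ) (c : ZMod M) : LaurentSeries ℚ :=
  HahnSeries.ofPowerSeries ℤ ℚ (eisTwo M c) * thetaJq⁻¹

theorem tGen_mul_thetaJq (M : ℕ) (c : ZMod M) :
    tGen M c * thetaJq = HahnSeries.ofPowerSeries ℤ ℚ (eisTwo M c) := by
  rw [tGen, mul_assoc, inv_mul_cancel₀ thetaJq_ne_zero, mul_one]

/-- The set of the `Γ₁`-generators `t_c`, `c ≠ 0`. -/
def tGenSet (M : ℕ) : Set (LaurentSeries ℚ) :=
  {x | ∃ c : ZMod M, c ≠ 0 ∧ x = tGen M c}

/-- **The function field of `X_1(M)` over `ℚ`** (mu-type model) inside `ℚ((q))`. -/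
def F1 (M : ℕ) : IntermediateField ℚ (LaurentSeries ℚ) :=
  IntermediateField.adjoin ℚ (divisorExpansions M ∪ tGenSet M)

theorem tGen_mem_F1 {M : ℕ} {c : ZMod M} (hc : c ≠ 0) : tGen M c ∈ F1 M :=
  subset_adjoin ℚ _ (Or.inr ⟨c, hc, rfl⟩)

theorem full_le_F1 (M : ℕ) : modularFunctionFieldFull M ≤ F1 M := by
  rw [modularFunctionFieldFull]
  exact IntermediateField.adjoin.mono ℚ _ _ Set.subset_union_left

theorem jqd_mem_F1 (M : ℕ) {d : ℕ} [NeZero d] (hd : d ∣ M) : qExpand ℚ d jq ∈ F1 M :=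
  full_le_F1 M (jqd_mem_full M hd)

theorem jq_mem_F1 (M : ℕ) : jq ∈ F1 M := by
  have h := jqd_mem_F1 M (one_dvd M)
  rwa [qExpand_one_apply] at h

theorem modularFunctionField_le_F1 (M : ℕ) [NeZero M] : modularFunctionField M ≤ F1 M :=
  (modularFunctionField_le_full M).trans (full_le_F1 M)

/-- `F1 M ≤ K` as soon as `K` contains the `Γ₀`-field and the `t_c`. -/
theorem F1_le_iff {M : ℕ} {K : IntermediateField ℚ (LaurentSeries ℚ)} :
    F1 M ≤ K ↔ modularFunctionFieldFull M ≤ K ∧ ∀ c : ZMod M, c ≠ 0 → tGen M c ∈ K := by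
  constructor
  · intro h
    exact ⟨(full_le_F1 M).trans h, fun c hc => h (tGen_mem_F1 hc)⟩
  · rintro ⟨h1, h2⟩
    rw [F1, adjoin_le_iff]
    rintro x (hx | ⟨c, hc, rfl⟩)
    · exact h1 (subset_adjoin ℚ _ hx)
    · exact h2 c hc

/-- The generator `t_c` as an element of `F1 M`. -/
def tGenF (M : ℕ) (c : ZMod M) (hc : c ≠ 0) : F1 M := ⟨tGen M c, tGen_mem_F1 hc⟩

/-! ### Diamond operators -/

/-- `σ` is the diamond operator `⟨d⟩` on `F1 M`: it fixes the `Γ₀`-field and sends `t_c` to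
`t_{d⁻¹ c}` (analytically: `σ f = f ∘ γ` for `γ ∈ Γ₀(M)` with lower right entry `≡ d`). -/
structure IsDiamond (M : ℕ) (d : (ZMod M)ˣ) (σ : F1 M ≃ₐ[ℚ] F1 M) : Prop where
  fix_full : ∀ x : F1 M, (x : LaurentSeries ℚ) ∈ modularFunctionFieldFull M → σ x = x
  map_tGen : ∀ (c : ZMod M) (hc : c ≠ 0),
    ((σ (tGenF M c hc) : F1 M) : LaurentSeries ℚ) = tGen M (((d⁻¹ : (ZMod M)ˣ) : ZMod M) * c)

/-- The diamond operator `⟨d⟩` exists on `F1 M` (a theorem of brick B2-aut). -/
def DiamondExists (M : ℕ) (d : (ZMod M)ˣ) : Prop := ∃ σ : F1 M ≃ₐ[ℚ] F1 M, IsDiamond M d σ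

/-- An algebra endomorphism of `F1 M` is determined by its values on the generators. -/
theorem algHom_ext_F1 {M : ℕ} {A : Type*} [Field A] [Algebra ℚ A] (σ τ : F1 M →ₐ[ℚ] A)
    (hfull : ∀ x : F1 M, (x : LaurentSeries ℚ) ∈ modularFunctionFieldFull M → σ x = τ x)
    (ht : ∀ (c : ZMod M) (hc : c ≠ 0), σ (tGenF M c hc) = τ (tGenF M c hc)) : σ = τ := by
  -- the equaliser is a subfield of `F1 M` containing the generators
  have key : ∀ y : LaurentSeries ℚ, ∀ hy : y ∈ F1 M, σ ⟨y, hy⟩ = τ ⟨y, hy⟩ := by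
    intro y hy
    induction hy using IntermediateField.adjoin_induction with
    | mem x hx =>
        rcases hx with hx | ⟨c, hc, rfl⟩
        · exact hfull _ (subset_adjoin ℚ _ hx)
        · exact ht c hc
    | algebraMap r =>
        have h1 : (⟨algebraMap ℚ (LaurentSeries ℚ) r, (F1 M).algebraMap_mem r⟩ : F1 M)
            = algebraMap ℚ (F1 M) r := Subtype.ext (by simp)
        rw [h1, σ.commutes, τ.commutes]
    | add x y hx hy ihx ihy =>
        have h1 : (⟨x + y, add_mem hx hy⟩ : F1 M) = ⟨x, hx⟩ + ⟨y, hy⟩ := rfl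
        rw [h1, map_add, map_add, ihx, ihy]
    | inv x hx ihx =>
        have h1 : (⟨x⁻¹, inv_mem hx⟩ : F1 M) = (⟨x, hx⟩ : F1 M)⁻¹ := rfl
        rw [h1, map_inv₀, map_inv₀, ihx]
    | mul x y hx hy ihx ihy =>
        have h1 : (⟨x * y, mul_mem hx hy⟩ : F1 M) = ⟨x, hx⟩ * ⟨y, hy⟩ := rfl
        rw [h1, map_mul, map_mul, ihx, ihy]
  exact AlgHom.ext fun x => key x.1 x.2

/-- The diamond operator is unique. -/
theorem IsDiamond.unique {M : ℕ} {d : (ZMod M)ˣ} {σ τ : F1 M ≃ₐ[ℚ] F1 M}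
    (hσ : IsDiamond M d σ) (hτ : IsDiamond M d τ) : σ = τ := by
  have h : (σ : F1 M →ₐ[ℚ] F1 M) = (τ : F1 M →ₐ[ℚ] F1 M) := by
    refine algHom_ext_F1 _ _ (fun x hx => ?_) (fun c hc => ?_)
    · show σ x = τ x
      rw [hσ.fix_full x hx, hτ.fix_full x hx]
    · show σ (tGenF M c hc) = τ (tGenF M c hc)
      exact Subtype.ext ((hσ.map_tGen c hc).trans (hτ.map_tGen c hc).symm)
  exact AlgEquiv.ext fun x => DFunLike.congr_fun h x

open Classical in
/-- **The diamond operator `⟨d⟩`** on `F1 M` (junk value `refl` unless `DiamondExists M d`). -/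
def diamond (M : ℕ) (d : (ZMod M)ˣ) : F1 M ≃ₐ[ℚ] F1 M :=
  if h : DiamondExists M d then h.choose else AlgEquiv.refl

theorem isDiamond_diamond {M : ℕ} {d : (ZMod M)ˣ} (h : DiamondExists M d) :
    IsDiamond M d (diamond M d) := by
  unfold diamond
  rw [dif_pos h]
  exact h.choose_spec

theorem diamond_eq {M : ℕ} {d : (ZMod M)ˣ} {σ : F1 M ≃ₐ[ℚ] F1 M} (hσ : IsDiamond M d σ) :
    diamond M d = σ :=
  (isDiamond_diamond ⟨σ, hσ⟩).unique hσ

/-! ### The Hecke correspondence at `p`: middle field and the two embeddings -/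

/-- The function field of `X(Γ₁(M) ∩ Γ₀(p))`: generated by `F1 M` and `B_p (F1 M)`,
`B_p f(q) = f(q^p)`. -/
def F1p (M p : ℕ) [NeZero p] : IntermediateField ℚ (LaurentSeries ℚ) :=
  F1 M ⊔ (F1 M).map (qExpandₐ p)

theorem F1_le_F1p (M p : ℕ) [NeZero p] : F1 M ≤ F1p M p := le_sup_left

theorem qExpand_mem_F1p {M p : ℕ} [NeZero p] {x : LaurentSeries ℚ} (hx : x ∈ F1 M) :
    qExpand ℚ p x ∈ F1p M p := by
  have h : (F1 M).map (qExpandₐ p) ≤ F1p M p := le_sup_right
  exact h ⟨x, hx, rfl⟩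

section BaseChangeSupply

variable {L : Type*} [Field L] [Algebra ℚ L]

theorem coeffMap_qExpand62 {R S : Type*} [CommRing R] [CommRing S] (f : R →+* S) (n : ℕ)
    [NeZero n] (x : LaurentSeries R) : coeffMap f (qExpand R n x) = qExpand S n (coeffMap f x) := by
  ext k
  by_cases hk : (n : ℤ) ∣ k
  · obtain ⟨m, rfl⟩ := hk
    rw [coeffMap_coeff, qExpand_coeff_mul, qExpand_coeff_mul, coeffMap_coeff]
  · rw [coeffMap_coeff, qExpand_coeff_of_not_dvd n _ hk, qExpand_coeff_of_not_dvd n _ hk,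
      map_zero]

theorem coeffEmb_qExpand62 (L : Type*) [Field L] [Algebra ℚ L] (n : ℕ) [NeZero n]
    (x : LaurentSeries ℚ) : coeffEmb L (qExpand ℚ n x) = qExpand L n (coeffEmb L x) :=
  coeffMap_qExpand62 _ n x

variable (L) in
theorem laurentBaseChange_mono62 {F₀ F₁ : IntermediateField ℚ (LaurentSeries ℚ)}
    (h : F₀ ≤ F₁) : laurentBaseChange L F₀ ≤ laurentBaseChange L F₁ := by
  rw [laurentBaseChange, IntermediateField.adjoin_le_iff]
  rintro _ ⟨y, hy, rfl⟩
  exact coeffEmb_mem_laurentBaseChange L (h hy)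

theorem qExpand_mem_laurentBaseChange62 {F₀ : IntermediateField ℚ (LaurentSeries ℚ)} (n : ℕ)
    [NeZero n] {F₁ : IntermediateField ℚ (LaurentSeries ℚ)} (hF : ∀ y ∈ F₀, qExpand ℚ n y ∈ F₁)
    {x : LaurentSeries L} (hx : x ∈ laurentBaseChange L F₀) :
    qExpand L n x ∈ laurentBaseChange L F₁ := by
  rw [mem_laurentBaseChange_iff] at hx
  induction hx using Subfield.closure_induction with
  | mem y hy =>
      rcases hy with ⟨a, rfl⟩ | ⟨z, hz, rfl⟩
      · rw [algebraMap_laurentSeries_eq_single, qExpand_single, mul_zero,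
          ← algebraMap_laurentSeries_eq_single]
        exact (laurentBaseChange L F₁).algebraMap_mem _
      · rw [← coeffEmb_qExpand62]
        exact coeffEmb_mem_laurentBaseChange L (hF z hz)
  | one => simp
  | add x y _ _ hx hy => simpa using add_mem hx hy
  | neg x _ hx => simpa using neg_mem hx
  | inv x _ hx => simpa using inv_mem hx
  | mul x y _ _ hx hy => simpa using mul_mem hx hy

end BaseChangeSupply

section HeckeBarOne

variable (L : Type*) [Field L] [Algebra ℚ L] (M p : ℕ) [NeZero p]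

/-- `α` : the inclusion `L·F1(M) → L·F1p(M,p)`. -/
def heckeAlphaBarOne :
    laurentBaseChange L (F1 M) →ₐ[L] laurentBaseChange L (F1p M p) :=
  IntermediateField.inclusion (laurentBaseChange_mono62 L (F1_le_F1p M p))

@[simp]
theorem coe_heckeAlphaBarOne (x : laurentBaseChange L (F1 M)) :
    (heckeAlphaBarOne L M p x : LaurentSeries L) = (x : LaurentSeries L) :=
  IntermediateField.coe_inclusion _ x

/-- `β` : `f(q) ↦ f(q^p)`, `L·F1(M) → L·F1p(M,p)`, as a ring homomorphism. -/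
def heckeBetaBarOneRingHom :
    laurentBaseChange L (F1 M) →+* laurentBaseChange L (F1p M p) where
  toFun x := ⟨qExpand L p (x : LaurentSeries L),
    qExpand_mem_laurentBaseChange62 p (fun _ hy => qExpand_mem_F1p hy) x.2⟩
  map_one' := Subtype.ext (map_one (qExpand L p))
  map_mul' _ _ := Subtype.ext (map_mul (qExpand L p) _ _)
  map_zero' := Subtype.ext (map_zero (qExpand L p))
  map_add' _ _ := Subtype.ext (map_add (qExpand L p) _ _)

/-- `β` : `f(q) ↦ f(q^p)`, `L·F1(M) → L·F1p(M,p)`. -/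
def heckeBetaBarOne :
    laurentBaseChange L (F1 M) →ₐ[L] laurentBaseChange L (F1p M p) :=
  { heckeBetaBarOneRingHom L M p with
    commutes' := fun a => Subtype.ext <| by
      show qExpand L p (algebraMap L (LaurentSeries L) a) = algebraMap L (LaurentSeries L) a
      rw [algebraMap_laurentSeries_eq_single, qExpand_single, mul_zero] }

@[simp]
theorem coe_heckeBetaBarOne (x : laurentBaseChange L (F1 M)) :
    (heckeBetaBarOne L M p x : LaurentSeries L) = qExpand L p (x : LaurentSeries L) :=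
  rfl

/-- `α` is integral (twin of the Prelude's `HeckeAlphaBarIntegral`). -/
def HeckeAlphaBarOneIntegral : Prop :=
  (heckeAlphaBarOne L M p).toRingHom.IsIntegral

/-- `β` is integral (twin of the Prelude's `HeckeBetaBarIntegral`). -/
def HeckeBetaBarOneIntegral : Prop :=
  (heckeBetaBarOne L M p).toRingHom.IsIntegral

variable {L M p}
variable (hα : HeckeAlphaBarOneIntegral L M p) (hβ : HeckeBetaBarOneIntegral L M p)
variable [HasPrincipalDivisors L (laurentBaseChange L (F1p M p))]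

/-- `T_p` on divisors of `L·F1(M)`: `α_* β^*` (twin of `heckeDivBar`). -/
def heckeDivBarOne :
    Divisor L (laurentBaseChange L (F1 M)) →+ Divisor L (laurentBaseChange L (F1 M)) :=
  Divisor.correspondence (heckeBetaBarOne L M p) (heckeAlphaBarOne L M p) hβ hα

/-- `T_p` on `Pic⁰(L·F1(M))` (twin of `heckePic0Bar`). -/
def heckePic0BarOne
    (hFI : FundamentalIdentityAlong L (heckeBetaBarOne L M p) hβ)
    (hfin : FiniteAlong L (heckeAlphaBarOne L M p))
    (hN : NormFormulaAlong L (heckeAlphaBarOne L M p) hfin) :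
    Pic0 L (laurentBaseChange L (F1 M)) →+ Pic0 L (laurentBaseChange L (F1 M)) :=
  Pic0.correspondence (heckeBetaBarOne L M p) (heckeAlphaBarOne L M p) hβ hα hFI hfin hN

/-- the transposed correspondence `β_* α^*` on divisors (twin of `heckeDivBarTranspose`). -/
def heckeDivBarOneTranspose :
    Divisor L (laurentBaseChange L (F1 M)) →+ Divisor L (laurentBaseChange L (F1 M)) :=
  Divisor.correspondence (heckeAlphaBarOne L M p) (heckeBetaBarOne L M p) hα hβ

/-- the transposed correspondence on `Pic⁰` (twin of `heckePic0BarTranspose`). -/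
def heckePic0BarOneTranspose
    (hFI : FundamentalIdentityAlong L (heckeAlphaBarOne L M p) hα)
    (hfin : FiniteAlong L (heckeBetaBarOne L M p))
    (hN : NormFormulaAlong L (heckeBetaBarOne L M p) hfin) :
    Pic0 L (laurentBaseChange L (F1 M)) →+ Pic0 L (laurentBaseChange L (F1 M)) :=
  Pic0.correspondence (heckeAlphaBarOne L M p) (heckeBetaBarOne L M p) hα hβ hFI hfin hN

end HeckeBarOne

/-! ### `J_1(M)` -/

/-- `ℚbar · F1(M) ≤ ℚbar((q))`. -/
abbrev F1Bar (M : ℕ) :
    IntermediateField (AlgebraicClosure ℚ) (LaurentSeries (AlgebraicClosure ℚ)) :=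
  laurentBaseChange (AlgebraicClosure ℚ) (F1 M)

/-- **`J_1(M)(ℚbar)`** : degree-zero divisor classes of `ℚbar · F1(M)`; carries the Prelude's
arithmetic Galois action (coefficientwise). -/
abbrev JOne (M : ℕ) : Type _ := Pic0 (AlgebraicClosure ℚ) (F1Bar M)

example (M : ℕ) :
    DistribMulAction (AlgebraicClosure ℚ ≃ₐ[ℚ] AlgebraicClosure ℚ) (JOne M) :=
  inferInstance

/-- The Galois representation on `J_1(M)[n]` (twin of `JZero.torsionGaloisRep`). -/
def JOne.torsionGaloisRep (M n : ℕ) :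
    (AlgebraicClosure ℚ ≃ₐ[ℚ] AlgebraicClosure ℚ) →*
      Module.End (ZMod n) (Pic0.torsion (AlgebraicClosure ℚ) (F1Bar M) n) :=
  (SemilinearAut.torsionRep _ _ n).comp (arithmeticGalois (F1 M))

@[simp]
theorem JOne.torsionGaloisRep_apply {M n : ℕ}
    (σ : AlgebraicClosure ℚ ≃ₐ[ℚ] AlgebraicClosure ℚ)
    (x : Pic0.torsion (AlgebraicClosure ℚ) (F1Bar M) n) :
    JOne.torsionGaloisRep M n σ x = arithmeticGalois (F1 M) σ • x :=
  rfl

/-- The inclusion `ℚbar·F_0(M) ≤ ℚbar·F_1(M)` (the covering `X_1(M) → X_0(M)`). -/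
theorem modularFunctionFieldBar_le_F1Bar (M : ℕ) : modularFunctionFieldBar M ≤ F1Bar M :=
  laurentBaseChange_mono62 _ (full_le_F1 M)

end Fermat.Agent.DS.G1.Defs62
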