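/-
Programme G1 (S48 = Deligne–Serre), brick B5/W1 -- helper40.

**Powers of an endomorphism that satisfies a monic quadratic.**

If `φ` is an element of a ring `E` (an algebra over a commutative ring `F`, e.g. `Module.End F V`)
with `φ * φ - a • φ + d • 1 = 0`, then for every `j` the power `φ ^ j` satisfies a monic quadratic
with constant term `d ^ j`:  `φ^j * φ^j - aⱼ • φ^j + d^j • 1 = 0`, where `aⱼ` is the Lucas sequence
`a₀ = 2`, `a₁ = a`, `aⱼ₊₂ = a aⱼ₊₁ - d aⱼ`.

Proof: put `φ' := a • 1 - φ`; then `φ + φ' = a`, `φ φ' = φ' φ = d`, `φ^j + φ'^j = aⱼ` (three-term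
recursion) and `φ^j φ'^j = d^j`, hence `φ^j * φ^j - aⱼ φ^j + d^j = φ^j (φ^j - aⱼ + φ'^j) = 0`.

This is the step "a power of a Frobenius element still satisfies a quadratic relation whose constant
term is the value of the determinant character" in the passage from the Eichler–Shimura relation at
Frobenius elements to all elements of the Galois group (generator form of Chebotarev).
-/
import Mathlib

set_option autoImplicit false

namespace Fermat.Agent.DS.G1.QuadPow40

variable {F : Type*} [CommRing F] {E : Type*} [Ring E] [Algebra F E]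

/-- the Lucas sequence `V_j(a, d)`. -/
def lucas (a d : F) : ℕ → F
  | 0 => 2
  | 1 => a
  | (j + 2) => a * lucas a d (j + 1) - d * lucas a d j

@[simp] theorem lucas_zero (a d : F) : lucas a d 0 = 2 := rfl

@[simp] theorem lucas_one (a d : F) : lucas a d 1 = a := rfl

theorem lucas_succ_succ (a d : F) (j : ℕ) :
    lucas a d (j + 2) = a * lucas a d (j + 1) - d * lucas a d j := rfl

section

variable {φ : E} {a d : F}

/-- the conjugate `φ' = a - φ`. -/
def conj (φ : E) (a : F) : E := a • (1 : E) - φ

theorem add_conj (φ : E) (a : F) : φ + conj φ a = a • (1 : E) := by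
  unfold conj; abel

theorem commute_conj (φ : E) (a : F) : Commute φ (conj φ a) := by
  unfold conj
  have h1 : Commute φ (a • (1 : E)) := by
    rw [Algebra.smul_def, mul_one]
    exact Algebra.commute_algebraMap_right a φ
  exact h1.sub_right (Commute.refl φ)

theorem mul_conj (h : φ * φ - a • φ + d • (1 : E) = 0) : φ * conj φ a = d • (1 : E) := by
  unfold conj
  rw [mul_sub, mul_smul_comm, mul_one]
  have : d • (1 : E) = a • φ - φ * φ := by
    have := h
    rw [sub_add_eq_add_sub, sub_eq_zero] at this
    rw [← this]; abel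
  rw [this]

/-- `φ^j + φ'^j` is the scalar `lucas a d j`. -/
theorem pow_add_conj_pow (h : φ * φ - a • φ + d • (1 : E) = 0) (j : ℕ) :
    φ ^ j + conj φ a ^ j = lucas a d j • (1 : E) := by
  induction j using Nat.strong_induction_on with
  | _ j ih =>
    match j, ih with
    | 0, _ => simp [two_smul]
    | 1, _ => simpa using add_conj φ a
    | (j + 2), ih =>
      have h1 := ih (j + 1) (by omega)
      have h0 := ih j (by omega)
      have hc := commute_conj φ a
      have hm := mul_conj h
      have hm' : conj φ a * φ = d • (1 : E) := by rw [← hc.eq]; exact hm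
      have key : φ ^ (j + 2) + conj φ a ^ (j + 2) =
          (φ + conj φ a) * (φ ^ (j + 1) + conj φ a ^ (j + 1)) -
            (φ * conj φ a) * (φ ^ j + conj φ a ^ j) := by
        have e1 : φ * conj φ a ^ (j + 1) = (φ * conj φ a) * conj φ a ^ j := by
          rw [pow_succ', mul_assoc]
        have e2 : conj φ a * φ ^ (j + 1) = (φ * conj φ a) * φ ^ j := by
          rw [pow_succ', ← mul_assoc, hc.eq]
        rw [add_mul, mul_add, mul_add, e1, e2, mul_add]
        rw [pow_succ' φ (j + 1), pow_succ' (conj φ a) (j + 1)]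
        abel
      rw [key, add_conj, hm, h1, h0, lucas_succ_succ]
      simp only [mul_smul_comm, mul_one, smul_smul, sub_smul]
      rw [mul_comm (lucas a d (j + 1)) a, mul_comm (lucas a d j) d]

/-- `φ^j φ'^j = d^j`. -/
theorem pow_mul_conj_pow (h : φ * φ - a • φ + d • (1 : E) = 0) (j : ℕ) :
    φ ^ j * conj φ a ^ j = (d ^ j) • (1 : E) := by
  rw [← (commute_conj φ a).mul_pow, mul_conj h, smul_pow, one_pow]

/-- **Powers of a root of a monic quadratic**: `φ^j` satisfies `X² - aⱼ X + d^j`. -/
theorem quad_rel_pow (h : φ * φ - a • φ + d • (1 : E) = 0) (j : ℕ) :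
    φ ^ j * φ ^ j - lucas a d j • φ ^ j + (d ^ j) • (1 : E) = 0 := by
  have h1 := pow_add_conj_pow h j
  have h2 := pow_mul_conj_pow h j
  have : lucas a d j • φ ^ j = φ ^ j * (lucas a d j • (1 : E)) := by
    rw [mul_smul_comm, mul_one]
  rw [this, ← h1, ← h2, mul_add]
  abel

/-- existential form. -/
theorem exists_quad_rel_pow (h : φ * φ - a • φ + d • (1 : E) = 0) (j : ℕ) :
    ∃ b : F, φ ^ j * φ ^ j - b • φ ^ j + (d ^ j) • (1 : E) = 0 :=
  ⟨lucas a d j, quad_rel_pow h j⟩

end

end Fermat.Agent.DS.G1.QuadPow40
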