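/-
Programme G1 (S48 = Deligne–Serre), brick B5/W2 -- helper40.

**From the quadratic relation at Frobenius elements to a quadratic relation at every element.**

Let `r` be a representation of `G_ℚ` on an `F`-module `V` that is trivial on the fixer of a finite
extension `L ⊂ ℚ̄`, `δ : G_ℚ →* Fˣ` a character trivial on the same fixer, `T` a finite set of (bad)
primes and `a : ℕ → F`.  If every Frobenius element `φ` at every valuation subring over every prime
`p ∉ T` satisfies `φ² - a_p φ + δ(φ) = 0` on `V` (the Eichler–Shimura relation), then EVERY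
`g ∈ G_ℚ` satisfies `g² - b g + δ(g) = 0` on `V` for some `b ∈ F`.

Proof: by the generator form of Chebotarev (`ChebQbar23.exists_frobenius_pow_eq_on`, on main)
`g = φ ^ j` on `L` for a Frobenius `φ` at a prime `p ∉ T`; hence `r g = (r φ) ^ j`,
`δ g = (δ φ) ^ j`, and powers of a root of a monic quadratic satisfy a monic quadratic whose constant
term is the power of the constant term (`QuadPow40.quad_rel_pow`).

The conclusion is exactly the hypothesis `hrel` of the Boston–Lenstra–Ribet extraction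
(helper19's `DS/G1/BLR19.exists_rep`).
-/
import Mathlib
import Fermat.Agent.ES.GAL.ChebQbar23
import Fermat.Agent.DS.G1.QuadPow40

set_option autoImplicit false

namespace Fermat.Agent.DS.G1.FrobToAll40

open Fermat.Agent.Lib.FrobeniusExists

variable {F : Type*} [CommRing F] {V : Type*} [AddCommGroup V] [Module F V]

/-- an element of `G_ℚ` that agrees with `h` on `L` has the same image under any homomorphism that
is trivial on the fixer of `L`. -/
theorem map_eq_of_eqOn {M : Type*} [Group M] (ρ : GQ →* M) (L : IntermediateField ℚ Qbar)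
    (hL : ∀ g : GQ, (∀ x ∈ L, g x = x) → ρ g = 1) {g h : GQ} (hgh : ∀ x ∈ L, h x = g x) :
    ρ g = ρ h := by
  have hfix : ∀ x ∈ L, (g⁻¹ * h) x = x := fun x hx => by
    rw [AlgEquiv.mul_apply, hgh x hx]
    exact g.symm_apply_apply x
  have h1 := hL _ hfix
  rw [map_mul, map_inv, inv_mul_eq_one] at h1
  exact h1

/-- the same for a homomorphism into a monoid (such as `Module.End F V`). -/
theorem map_eq_of_eqOn' {M : Type*} [Monoid M] (ρ : GQ →* M) (L : IntermediateField ℚ Qbar)
    (hL : ∀ g : GQ, (∀ x ∈ L, g x = x) → ρ g = 1) {g h : GQ} (hgh : ∀ x ∈ L, h x = g x) :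
    ρ g = ρ h := by
  have hfix : ∀ x ∈ L, (g⁻¹ * h) x = x := fun x hx => by
    rw [AlgEquiv.mul_apply, hgh x hx]
    exact g.symm_apply_apply x
  have h1 := hL _ hfix
  have : ρ h = ρ g * ρ (g⁻¹ * h) := by rw [← map_mul, mul_inv_cancel_left]
  rw [this, h1, mul_one]

/-- **Frobenius relations ⇒ relations at every element** (generator form of Chebotarev). -/
theorem rel_all_of_rel_frob (r : Representation F GQ V) (δ : GQ →* Fˣ)
    (L : IntermediateField ℚ Qbar) [FiniteDimensional ℚ L]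
    (hrL : ∀ g : GQ, (∀ x ∈ L, g x = x) → r g = 1)
    (hδL : ∀ g : GQ, (∀ x ∈ L, g x = x) → δ g = 1)
    (T : Finset ℕ) (a : ℕ → F)
    (hfrob : ∀ p : ℕ, p.Prime → p ∉ T → ∀ A : ValuationSubring Qbar, A.LiesOverPrime p →
      ∀ φ : GQ, A.IsFrobeniusAt φ p →
        r φ * r φ - a p • r φ + ((δ φ : Fˣ) : F) • (1 : Module.End F V) = 0) (g : GQ) :
    ∃ b : F, r g * r g - b • r g + ((δ g : Fˣ) : F) • (1 : Module.End F V) = 0 := by
  obtain ⟨p, A, φ, j, hp, hpT, hA, hφ, hj⟩ :=
    Fermat.Agent.ES.GAL.ChebQbar23.exists_frobenius_pow_eq_on L g T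
  have hr : r g = r φ ^ j := by
    rw [← map_pow]
    exact map_eq_of_eqOn' r L hrL hj
  have hδ : δ g = δ φ ^ j := by
    rw [← map_pow]
    exact map_eq_of_eqOn δ L hδL hj
  have h := Fermat.Agent.DS.G1.QuadPow40.quad_rel_pow (hfrob p hp hpT A hA φ hφ) j
  refine ⟨Fermat.Agent.DS.G1.QuadPow40.lucas (a p) ((δ φ : Fˣ) : F) j, ?_⟩
  rw [hr, hδ, Units.val_pow_eq_pow_val]
  exact h

/-- pointwise form (the literal `hrel` of the Boston–Lenstra–Ribet extraction). -/
theorem rel_all_of_rel_frob_apply (r : Representation F GQ V) (δ : GQ →* Fˣ)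
    (L : IntermediateField ℚ Qbar) [FiniteDimensional ℚ L]
    (hrL : ∀ g : GQ, (∀ x ∈ L, g x = x) → r g = 1)
    (hδL : ∀ g : GQ, (∀ x ∈ L, g x = x) → δ g = 1)
    (T : Finset ℕ) (a : ℕ → F)
    (hfrob : ∀ p : ℕ, p.Prime → p ∉ T → ∀ A : ValuationSubring Qbar, A.LiesOverPrime p →
      ∀ φ : GQ, A.IsFrobeniusAt φ p →
        ∀ v : V, r φ (r φ v) - a p • r φ v + ((δ φ : Fˣ) : F) • v = 0) (g : GQ) :
    ∃ b : F, ∀ v : V, r g (r g v) - b • r g v + ((δ g : Fˣ) : F) • v = 0 := by
  have hfrob' : ∀ p : ℕ, p.Prime → p ∉ T → ∀ A : ValuationSubring Qbar, A.LiesOverPrime p →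
      ∀ φ : GQ, A.IsFrobeniusAt φ p →
        r φ * r φ - a p • r φ + ((δ φ : Fˣ) : F) • (1 : Module.End F V) = 0 := by
    intro p hp hpT A hA φ hφ
    ext v
    simpa using hfrob p hp hpT A hA φ hφ v
  obtain ⟨b, hb⟩ := rel_all_of_rel_frob r δ L hrL hδL T a hfrob' g
  refine ⟨b, fun v => ?_⟩
  have := congrArg (fun e : Module.End F V => e v) hb
  simpa using this

end Fermat.Agent.DS.G1.FrobToAll40
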