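/-
Programme G1 (Gamma1 stack for S48), chapter B2, brick (an5) (helper12; assigned by helper62).

THE COSET ENUMERATION OF `Γ₁(M)` IN `SL(2, ℤ)`.

* `bottomRow M γ = ((γ 1 0 : ZMod M), (γ 1 1 : ZMod M)) = (0, 1) · γ`;
* `actR v γ` : the right action of `SL(2, ℤ)` on row vectors `v : ZMod M × ZMod M`
  (`(a, b) · γ = (a γ₀₀ + b γ₁₀, a γ₀₁ + b γ₁₁)`: verbatim the index transformation of
  `WpTorsion62.wpTor_smul`);
* (i) `bottomRow_mul : bottomRow M (γ' * γ) = actR (bottomRow M γ') γ`;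
* (ii) `bottomRow_eq_zero_one_iff : bottomRow M γ = (0, 1) ↔ γ ∈ Gamma1 M`,
  `bottomRow_eq_iff : bottomRow M γ = bottomRow M γ' ↔ γ * γ'⁻¹ ∈ Gamma1 M`
  (the RIGHT cosets `Γ₁(M) γ`);
* (iii) `range_bottomRow : Set.range (bottomRow M) = {v | IsPrimitive v}` where
  `IsPrimitive v ↔ ∃ x y, x * v.1 + y * v.2 = 1 ↔ Ideal.span {v.1, v.2} = ⊤`
  (for integer lifts: `↔ gcd(a, b, M) = 1`);
* (iv) the same modulo `±`: `pmGamma1 M` (`= ±Γ₁(M)`, a subgroup) and
  `bottomRow_eq_or_eq_neg_iff`;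
* the quotient forms: `rightCosetEquiv : Quotient (rightRel (Gamma1 M)) ≃ {v // IsPrimitive v}`,
  `leftCosetEquiv : SL(2, ℤ) ⧸ Gamma1 M ≃ {v // IsPrimitive v}` (`γ ↦ bottomRow γ⁻¹`) and
  `index_Gamma1 : (Gamma1 M).index = Nat.card {v // IsPrimitive v}`.
-/
import Mathlib
import Fermat.Agent.X0.G1Col

set_option autoImplicit false

namespace Fermat.Agent.DS.G1.Gamma1Cosets12

open Matrix CongruenceSubgroup
open scoped MatrixGroups

variable {M : ℕ}

/-! ### Row vectors modulo `M` and the right action of `SL(2, ℤ)` -/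

/-- The right action of `SL(2, ℤ)` on row vectors modulo `M`:
`(a, b) · γ = (a γ₀₀ + b γ₁₀, a γ₀₁ + b γ₁₁)`. -/
def actR (v : ZMod M × ZMod M) (γ : SL(2, ℤ)) : ZMod M × ZMod M :=
  (v.1 * ((γ 0 0 : ℤ) : ZMod M) + v.2 * ((γ 1 0 : ℤ) : ZMod M),
    v.1 * ((γ 0 1 : ℤ) : ZMod M) + v.2 * ((γ 1 1 : ℤ) : ZMod M))

@[simp] theorem actR_fst (v : ZMod M × ZMod M) (γ : SL(2, ℤ)) :
    (actR v γ).1 = v.1 * ((γ 0 0 : ℤ) : ZMod M) + v.2 * ((γ 1 0 : ℤ) : ZMod M) := rfl

@[simp] theorem actR_snd (v : ZMod M × ZMod M) (γ : SL(2, ℤ)) :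
    (actR v γ).2 = v.1 * ((γ 0 1 : ℤ) : ZMod M) + v.2 * ((γ 1 1 : ℤ) : ZMod M) := rfl

@[simp] theorem actR_one (v : ZMod M × ZMod M) : actR v 1 = v := by
  ext <;> simp [actR]

theorem actR_mul (v : ZMod M × ZMod M) (γ γ' : SL(2, ℤ)) :
    actR v (γ * γ') = actR (actR v γ) γ' := by
  have h00 : ((γ * γ') 0 0 : ℤ) = γ 0 0 * γ' 0 0 + γ 0 1 * γ' 1 0 := by
    rw [Matrix.SpecialLinearGroup.coe_mul, Matrix.mul_apply, Fin.sum_univ_two]
  have h01 : ((γ * γ') 0 1 : ℤ) = γ 0 0 * γ' 0 1 + γ 0 1 * γ' 1 1 := by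
    rw [Matrix.SpecialLinearGroup.coe_mul, Matrix.mul_apply, Fin.sum_univ_two]
  have h10 : ((γ * γ') 1 0 : ℤ) = γ 1 0 * γ' 0 0 + γ 1 1 * γ' 1 0 := by
    rw [Matrix.SpecialLinearGroup.coe_mul, Matrix.mul_apply, Fin.sum_univ_two]
  have h11 : ((γ * γ') 1 1 : ℤ) = γ 1 0 * γ' 0 1 + γ 1 1 * γ' 1 1 := by
    rw [Matrix.SpecialLinearGroup.coe_mul, Matrix.mul_apply, Fin.sum_univ_two]
  ext
  · simp only [actR_fst, actR_snd, h00, h10, Int.cast_add, Int.cast_mul]
    ring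
  · simp only [actR_fst, actR_snd, h01, h11, Int.cast_add, Int.cast_mul]
    ring

@[simp] theorem actR_mul_inv_cancel (v : ZMod M × ZMod M) (γ : SL(2, ℤ)) :
    actR (actR v γ) γ⁻¹ = v := by
  rw [← actR_mul, mul_inv_cancel, actR_one]

@[simp] theorem actR_inv_mul_cancel (v : ZMod M × ZMod M) (γ : SL(2, ℤ)) :
    actR (actR v γ⁻¹) γ = v := by
  rw [← actR_mul, inv_mul_cancel, actR_one]

theorem actR_injective (γ : SL(2, ℤ)) : Function.Injective fun v : ZMod M × ZMod M => actR v γ :=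
  fun v w h => by simpa using congrArg (fun u => actR u γ⁻¹) h

theorem actR_neg (v : ZMod M × ZMod M) (γ : SL(2, ℤ)) : actR (-v) γ = -actR v γ := by
  ext <;> simp [actR] <;> ring

theorem actR_neg_right (v : ZMod M × ZMod M) (γ : SL(2, ℤ)) : actR v (-γ) = -actR v γ := by
  ext <;> simp [actR] <;> ring

theorem actR_add (v w : ZMod M × ZMod M) (γ : SL(2, ℤ)) : actR (v + w) γ = actR v γ + actR w γ := by
  ext <;> simp [actR] <;> ring

/-- The action in `vecMul` form. -/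
theorem actR_eq_vecMul (v : ZMod M × ZMod M) (γ : SL(2, ℤ)) :
    ![(actR v γ).1, (actR v γ).2] =
      ![v.1, v.2] ᵥ* (γ : Matrix (Fin 2) (Fin 2) ℤ).map (Int.cast : ℤ → ZMod M) := by
  ext i
  fin_cases i <;> simp [actR, Matrix.vecMul, dotProduct, Fin.sum_univ_two]

/-! ### The bottom row -/

/-- The bottom row of `γ` modulo `M`: `(0, 1) · γ`. -/
def bottomRow (M : ℕ) (γ : SL(2, ℤ)) : ZMod M × ZMod M :=
  (((γ 1 0 : ℤ) : ZMod M), ((γ 1 1 : ℤ) : ZMod M))

@[simp] theorem bottomRow_fst (γ : SL(2, ℤ)) : (bottomRow M γ).1 = ((γ 1 0 : ℤ) : ZMod M) := rfl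

@[simp] theorem bottomRow_snd (γ : SL(2, ℤ)) : (bottomRow M γ).2 = ((γ 1 1 : ℤ) : ZMod M) := rfl

theorem bottomRow_eq_actR (γ : SL(2, ℤ)) : bottomRow M γ = actR (0, 1) γ := by
  ext <;> simp [actR]

@[simp] theorem bottomRow_one : bottomRow M 1 = (0, 1) := by
  ext <;> simp

/-- **(i)** `(0,1) · (γ' γ) = ((0,1) · γ') · γ`. -/
theorem bottomRow_mul (γ' γ : SL(2, ℤ)) : bottomRow M (γ' * γ) = actR (bottomRow M γ') γ := by
  rw [bottomRow_eq_actR, actR_mul, ← bottomRow_eq_actR]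

theorem bottomRow_neg (γ : SL(2, ℤ)) : bottomRow M (-γ) = -bottomRow M γ := by
  ext <;> simp

/-- **(ii)** the stabiliser of `(0, 1)` is `Γ₁(M)`. -/
theorem bottomRow_eq_zero_one_iff (γ : SL(2, ℤ)) : bottomRow M γ = (0, 1) ↔ γ ∈ Gamma1 M := by
  rw [Gamma1_mem]
  constructor
  · intro h
    have h10 : ((γ 1 0 : ℤ) : ZMod M) = 0 := congrArg Prod.fst h
    have h11 : ((γ 1 1 : ℤ) : ZMod M) = 1 := congrArg Prod.snd h
    refine ⟨?_, h11, h10⟩
    have hdet : (γ 0 0 * γ 1 1 - γ 0 1 * γ 1 0 : ℤ) = 1 := by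
      have := γ.det_coe
      rwa [Matrix.det_fin_two] at this
    have := congrArg (Int.cast : ℤ → ZMod M) hdet
    push_cast at this
    rw [h10, h11] at this
    simpa using this
  · rintro ⟨-, h11, h10⟩
    ext
    · exact h10
    · exact h11

/-- **(ii)** two matrices have the same bottom row modulo `M` iff they lie in the same right coset
`Γ₁(M) γ`. -/
theorem bottomRow_eq_iff (γ γ' : SL(2, ℤ)) :
    bottomRow M γ = bottomRow M γ' ↔ γ * γ'⁻¹ ∈ Gamma1 M := by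
  rw [← bottomRow_eq_zero_one_iff, bottomRow_mul]
  constructor
  · intro h
    rw [h, ← bottomRow_mul, mul_inv_cancel, bottomRow_one]
  · intro h
    have := congrArg (fun u => actR u γ') h
    simp only [actR_inv_mul_cancel] at this
    rw [this, ← bottomRow_eq_actR]

theorem bottomRow_eq_iff' (γ γ' : SL(2, ℤ)) :
    bottomRow M γ = bottomRow M γ' ↔ γ' * γ⁻¹ ∈ Gamma1 M := by
  rw [eq_comm, bottomRow_eq_iff]

theorem bottomRow_mul_of_mem_Gamma1 {δ : SL(2, ℤ)} (hδ : δ ∈ Gamma1 M) (γ : SL(2, ℤ)) :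
    bottomRow M (δ * γ) = bottomRow M γ := by
  rw [bottomRow_eq_iff]
  simpa using hδ

/-- bottom rows and left cosets: `γ Γ₁(M) = γ' Γ₁(M) ↔ (0,1) γ⁻¹ = (0,1) γ'⁻¹`. -/
theorem bottomRow_inv_eq_iff (γ γ' : SL(2, ℤ)) :
    bottomRow M γ⁻¹ = bottomRow M γ'⁻¹ ↔ γ⁻¹ * γ' ∈ Gamma1 M := by
  rw [bottomRow_eq_iff, inv_inv]

/-! ### Primitive vectors -/

/-- A row vector `(a, b)` modulo `M` is primitive if `a` and `b` generate the unit ideal of
`ZMod M` (equivalently: it has order exactly `M`; for integer lifts: `gcd(a, b, M) = 1`). -/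
def IsPrimitive (v : ZMod M × ZMod M) : Prop := ∃ x y : ZMod M, x * v.1 + y * v.2 = 1

theorem isPrimitive_iff_isCoprime (v : ZMod M × ZMod M) : IsPrimitive v ↔ IsCoprime v.1 v.2 :=
  Iff.rfl

theorem isPrimitive_iff_span (v : ZMod M × ZMod M) :
    IsPrimitive v ↔ Ideal.span ({v.1, v.2} : Set (ZMod M)) = ⊤ := by
  rw [Ideal.eq_top_iff_one, Ideal.mem_span_pair]
  constructor
  · rintro ⟨x, y, h⟩
    exact ⟨x, y, h⟩
  · rintro ⟨x, y, h⟩
    exact ⟨x, y, h⟩

theorem isPrimitive_zero_one : IsPrimitive ((0, 1) : ZMod M × ZMod M) := ⟨0, 1, by simp⟩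

theorem IsPrimitive.neg {v : ZMod M × ZMod M} (h : IsPrimitive v) : IsPrimitive (-v) := by
  obtain ⟨x, y, hxy⟩ := h
  exact ⟨-x, -y, by simpa using hxy⟩

theorem IsPrimitive.actR {v : ZMod M × ZMod M} (h : IsPrimitive v) (γ : SL(2, ℤ)) :
    IsPrimitive (actR v γ) := by
  obtain ⟨x, y, hxy⟩ := h
  -- `v = (v γ) γ⁻¹`, so `v.1, v.2` are combinations of the entries of `v γ`
  have hv : v = Gamma1Cosets12.actR (Gamma1Cosets12.actR v γ) γ⁻¹ := (actR_mul_inv_cancel v γ).symm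
  set w := Gamma1Cosets12.actR v γ with hw
  have h1 : v.1 = w.1 * ((γ⁻¹ 0 0 : ℤ) : ZMod M) + w.2 * ((γ⁻¹ 1 0 : ℤ) : ZMod M) := by
    rw [hv]; rfl
  have h2 : v.2 = w.1 * ((γ⁻¹ 0 1 : ℤ) : ZMod M) + w.2 * ((γ⁻¹ 1 1 : ℤ) : ZMod M) := by
    rw [hv]; rfl
  refine ⟨x * ((γ⁻¹ 0 0 : ℤ) : ZMod M) + y * ((γ⁻¹ 0 1 : ℤ) : ZMod M),
    x * ((γ⁻¹ 1 0 : ℤ) : ZMod M) + y * ((γ⁻¹ 1 1 : ℤ) : ZMod M), ?_⟩
  rw [← hxy, h1, h2]
  ring

theorem isPrimitive_actR_iff (v : ZMod M × ZMod M) (γ : SL(2, ℤ)) :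
    IsPrimitive (actR v γ) ↔ IsPrimitive v :=
  ⟨fun h => by simpa using h.actR γ⁻¹, fun h => h.actR γ⟩

theorem isPrimitive_bottomRow (γ : SL(2, ℤ)) : IsPrimitive (bottomRow M γ) := by
  rw [bottomRow_eq_actR]
  exact isPrimitive_zero_one.actR γ

/-- Primitivity in terms of integer lifts. -/
theorem isPrimitive_intCast_iff (a b : ℤ) :
    IsPrimitive (((a : ZMod M), (b : ZMod M)) : ZMod M × ZMod M) ↔
      Int.gcd (Int.gcd a b) M = 1 := by
  constructor
  · rintro ⟨x, y, h⟩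
    -- lift `x`, `y` and read the identity in `ℤ`
    obtain ⟨x', rfl⟩ := ZMod.intCast_surjective x
    obtain ⟨y', rfl⟩ := ZMod.intCast_surjective y
    have h' : ((x' * a + y' * b : ℤ) : ZMod M) = ((1 : ℤ) : ZMod M) := by
      push_cast
      exact h
    rw [ZMod.intCast_eq_intCast_iff_dvd_sub] at h'
    obtain ⟨k, hk⟩ := h'
    -- `1 = x' a + y' b + k M`
    have hone : (1 : ℤ) = x' * a + y' * b + k * M := by linarith
    set g := Int.gcd (Int.gcd a b) M with hg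
    have hga : (g : ℤ) ∣ a := (Int.gcd_dvd_left _ _).trans (Int.gcd_dvd_left _ _)
    have hgb : (g : ℤ) ∣ b := (Int.gcd_dvd_left _ _).trans (Int.gcd_dvd_right _ _)
    have hgM : (g : ℤ) ∣ M := Int.gcd_dvd_right _ _
    have hg1 : (g : ℤ) ∣ 1 := by
      rw [hone]
      exact dvd_add (dvd_add (hga.mul_left _) (hgb.mul_left _)) (hgM.mul_left _)
    have := Int.eq_one_of_dvd_one (by positivity) hg1
    exact_mod_cast this
  · intro h
    -- Bezout twice
    have h1 : IsCoprime ((Int.gcd a b : ℤ)) (M : ℤ) := Int.isCoprime_iff_gcd_eq_one.mpr h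
    obtain ⟨u, w, huw⟩ := h1
    have hb : (Int.gcd a b : ℤ) = a * Int.gcdA a b + b * Int.gcdB a b := Int.gcd_eq_gcd_ab a b
    refine ⟨(u * Int.gcdA a b : ℤ), (u * Int.gcdB a b : ℤ), ?_⟩
    have : ((u * Int.gcdA a b * a + u * Int.gcdB a b * b : ℤ) : ZMod M) = ((1 : ℤ) : ZMod M) := by
      rw [ZMod.intCast_eq_intCast_iff_dvd_sub]
      refine ⟨w, ?_⟩
      rw [hb] at huw
      linarith
    push_cast at this ⊢
    exact this

/-- **Lifting**: a primitive vector modulo `M` lifts to a coprime pair of integers. -/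
theorem exists_isCoprime_lift {v : ZMod M × ZMod M} (hv : IsPrimitive v) :
    ∃ c d : ℤ, IsCoprime c d ∧ (c : ZMod M) = v.1 ∧ (d : ZMod M) = v.2 := by
  rcases Nat.eq_zero_or_pos M with hM | hM
  · subst hM
    -- `ZMod 0 = ℤ`
    obtain ⟨x, y, h⟩ := hv
    exact ⟨v.1, v.2, ⟨x, y, h⟩, Int.cast_id, Int.cast_id⟩
  · have : NeZero M := ⟨hM.ne'⟩
    -- natural lifts
    set a : ℕ := v.1.val with ha
    set b : ℕ := v.2.val with hb
    have hva : ((a : ℤ) : ZMod M) = v.1 := by simp [ha]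
    have hvb : ((b : ℤ) : ZMod M) = v.2 := by simp [hb]
    have hprim : Int.gcd (Int.gcd (a : ℤ) (b : ℤ)) M = 1 := by
      rw [← isPrimitive_intCast_iff, hva, hvb]
      exact hv
    have hprim' : Nat.gcd (Nat.gcd a b) M = 1 := by
      simpa [Int.gcd_natCast_natCast] using hprim
    -- a positive lift `c` of `v.1`
    obtain ⟨c, hc0, hcM, hcv⟩ : ∃ c : ℕ, 0 < c ∧ Nat.gcd c M = Nat.gcd a M ∧
        ((c : ℤ) : ZMod M) = v.1 := by
      rcases Nat.eq_zero_or_pos a with h0 | hpos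
      · refine ⟨M, hM, by simp [h0], ?_⟩
        rw [← hva, h0]
        simp
      · exact ⟨a, hpos, rfl, hva⟩
    -- move `b` modulo `M` to something prime to `c`
    have hbc : b.Coprime (Nat.gcd c M) := by
      rw [hcM]
      have : Nat.gcd b (Nat.gcd a M) = Nat.gcd (Nat.gcd a b) M := by
        rw [Nat.gcd_comm a b, Nat.gcd_assoc]
      rw [Nat.Coprime, this, hprim']
    obtain ⟨k, hk⟩ := Fermat.Agent.X0.G1Col.g1c_exists_coprime_add_mul hc0 hbc
    refine ⟨c, (b + k * M : ℕ), ?_, hcv, ?_⟩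
    · exact Nat.isCoprime_iff_coprime.mpr hk.symm
    · rw [← hvb]
      push_cast
      simp

/-- **(iii)** every primitive vector is a bottom row. -/
theorem exists_bottomRow_eq {v : ZMod M × ZMod M} (hv : IsPrimitive v) :
    ∃ γ : SL(2, ℤ), bottomRow M γ = v := by
  obtain ⟨c, d, hcd, hc, hd⟩ := exists_isCoprime_lift hv
  obtain ⟨γ, -, hγ⟩ := ModularGroup.bottom_row_surj (R := ℤ) (show IsCoprime (![c, d] 0) (![c, d] 1) by
    simpa using hcd)
  refine ⟨γ, ?_⟩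
  have h0 : γ 1 0 = c := by
    have := congrFun hγ 0
    simpa using this
  have h1 : γ 1 1 = d := by
    have := congrFun hγ 1
    simpa using this
  ext
  · simp [h0, hc]
  · simp [h1, hd]

/-- **(iii)** the image of `bottomRow` is the set of primitive vectors. -/
theorem range_bottomRow : Set.range (bottomRow M) = {v | IsPrimitive v} := by
  ext v
  constructor
  · rintro ⟨γ, rfl⟩
    exact isPrimitive_bottomRow γ
  · intro hv
    exact exists_bottomRow_eq hv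

/-- `SL(2, ℤ)` acts transitively on the primitive vectors. -/
theorem exists_actR_eq {v w : ZMod M × ZMod M} (hv : IsPrimitive v) (hw : IsPrimitive w) :
    ∃ γ : SL(2, ℤ), actR v γ = w := by
  obtain ⟨γ, rfl⟩ := exists_bottomRow_eq hv
  obtain ⟨γ', rfl⟩ := exists_bottomRow_eq hw
  refine ⟨γ⁻¹ * γ', ?_⟩
  rw [← bottomRow_mul, mul_inv_cancel_left]

/-! ### (iv) modulo `±` -/

/-- `±Γ₁(M)`. -/
def pmGamma1 (M : ℕ) : Subgroup SL(2, ℤ) where
  carrier := {γ | γ ∈ Gamma1 M ∨ -γ ∈ Gamma1 M}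
  one_mem' := Or.inl (one_mem _)
  mul_mem' := by
    rintro a b (ha | ha) (hb | hb)
    · exact Or.inl (mul_mem ha hb)
    · exact Or.inr (by simpa using mul_mem ha hb)
    · exact Or.inr (by simpa using mul_mem ha hb)
    · exact Or.inl (by simpa using mul_mem ha hb)
  inv_mem' := by
    rintro a (ha | ha)
    · exact Or.inl (inv_mem ha)
    · refine Or.inr ?_
      have := inv_mem ha
      rwa [inv_neg] at this

theorem mem_pmGamma1 {γ : SL(2, ℤ)} : γ ∈ pmGamma1 M ↔ γ ∈ Gamma1 M ∨ -γ ∈ Gamma1 M := Iff.rfl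

theorem Gamma1_le_pmGamma1 : Gamma1 M ≤ pmGamma1 M := fun _ h => Or.inl h

theorem neg_one_mem_pmGamma1 : (-1 : SL(2, ℤ)) ∈ pmGamma1 M := Or.inr (by simp)

/-- **(iv)** equality of bottom rows up to sign ⟺ same right coset of `±Γ₁(M)`. -/
theorem bottomRow_eq_or_eq_neg_iff (γ γ' : SL(2, ℤ)) :
    (bottomRow M γ = bottomRow M γ' ∨ bottomRow M γ = -bottomRow M γ') ↔
      γ * γ'⁻¹ ∈ pmGamma1 M := by
  rw [mem_pmGamma1, ← bottomRow_eq_iff, ← bottomRow_neg]
  have : -(γ * γ'⁻¹) = γ * (-γ')⁻¹ := by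
    rw [inv_neg, mul_neg]
  rw [this, ← bottomRow_eq_iff]

/-! ### Quotient forms and the index -/

/-- The bottom row as a map to the subtype of primitive vectors. -/
def bottomRowP (M : ℕ) (γ : SL(2, ℤ)) : {v : ZMod M × ZMod M // IsPrimitive v} :=
  ⟨bottomRow M γ, isPrimitive_bottomRow γ⟩

theorem bottomRowP_surjective : Function.Surjective (bottomRowP M) := by
  rintro ⟨v, hv⟩
  obtain ⟨γ, rfl⟩ := exists_bottomRow_eq hv
  exact ⟨γ, rfl⟩

/-- Right cosets `Γ₁(M) γ` ↔ primitive vectors, `Γ₁(M) γ ↦ (0,1) γ`. -/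
noncomputable def rightCosetEquiv (M : ℕ) :
    Quotient (QuotientGroup.rightRel (Gamma1 M)) ≃ {v : ZMod M × ZMod M // IsPrimitive v} :=
  Equiv.ofBijective
    (Quotient.lift (bottomRowP M) (by
      intro γ γ' h
      replace h : QuotientGroup.rightRel (Gamma1 M) γ γ' := h
      rw [QuotientGroup.rightRel_apply] at h
      apply Subtype.ext
      show bottomRow M γ = bottomRow M γ'
      rw [bottomRow_eq_iff']
      exact h))
    ⟨by
      intro x y
      induction x using Quotient.inductionOn with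
      | h γ =>
        induction y using Quotient.inductionOn with
        | h γ' =>
          intro h
          apply Quotient.sound
          show QuotientGroup.rightRel (Gamma1 M) γ γ'
          rw [QuotientGroup.rightRel_apply]
          have : bottomRow M γ = bottomRow M γ' := congrArg Subtype.val h
          exact (bottomRow_eq_iff' γ γ').mp this,
    by
      intro v
      obtain ⟨γ, hγ⟩ := bottomRowP_surjective v
      exact ⟨Quotient.mk _ γ, hγ⟩⟩

@[simp] theorem rightCosetEquiv_mk (γ : SL(2, ℤ)) :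
    rightCosetEquiv M (Quotient.mk _ γ) = bottomRowP M γ := rfl

/-- Left cosets `γ Γ₁(M)` ↔ primitive vectors, `γ Γ₁(M) ↦ (0,1) γ⁻¹`. -/
noncomputable def leftCosetEquiv (M : ℕ) :
    SL(2, ℤ) ⧸ Gamma1 M ≃ {v : ZMod M × ZMod M // IsPrimitive v} :=
  Equiv.ofBijective
    (Quotient.lift (fun γ => bottomRowP M γ⁻¹) (by
      intro γ γ' h
      replace h : QuotientGroup.leftRel (Gamma1 M) γ γ' := h
      rw [QuotientGroup.leftRel_apply] at h
      apply Subtype.ext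
      show bottomRow M γ⁻¹ = bottomRow M γ'⁻¹
      rw [bottomRow_inv_eq_iff]
      exact h))
    ⟨by
      intro x y
      induction x using Quotient.inductionOn with
      | h γ =>
        induction y using Quotient.inductionOn with
        | h γ' =>
          intro h
          apply Quotient.sound
          show QuotientGroup.leftRel (Gamma1 M) γ γ'
          rw [QuotientGroup.leftRel_apply]
          have : bottomRow M γ⁻¹ = bottomRow M γ'⁻¹ := congrArg Subtype.val h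
          exact (bottomRow_inv_eq_iff γ γ').mp this,
    by
      intro v
      obtain ⟨γ, hγ⟩ := bottomRowP_surjective v
      exact ⟨Quotient.mk _ γ⁻¹, by simpa using hγ⟩⟩

@[simp] theorem leftCosetEquiv_mk (γ : SL(2, ℤ)) :
    leftCosetEquiv M (QuotientGroup.mk γ) = bottomRowP M γ⁻¹ := rfl

/-- The index of `Γ₁(M)` is the number of primitive vectors modulo `M`. -/
theorem index_Gamma1 (M : ℕ) :
    (Gamma1 M).index = Nat.card {v : ZMod M × ZMod M // IsPrimitive v} := by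
  rw [Subgroup.index, Nat.card_congr (leftCosetEquiv M)]

end Fermat.Agent.DS.G1.Gamma1Cosets12
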