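/-
Programme G1 (Gamma1 stack for S48, board #11), chapter SPEC, helper45.

THE TOTAL OPERATORS on `Pic⁰(L·F1(M))` (in particular on `JOne M`), literal twins of the Prelude's
`HeckeInputsAlong` / `heckeOperatorAlong` (junk value `0` unless the inputs hold), so that the
chapters B1, B3, B4, B5 all speak about the SAME operators:

* `HeckeInputsAlongOne L M p`, `heckeOne L M p`  (= `heckePic0BarOne` = `α_* β^*`);
* `HeckeInputsAlongOneT L M p`, `heckeOneT L M p` (= `heckePic0BarOneTranspose` = `β_* α^*`);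
* `IsDiamondBar L M d s` : `s` is the `L`-linear extension of `diamond M d` to `L·F1(M)`;
  `diamondBar L M d` (junk value `refl` unless it exists), `diamondOne L M d` := the action of
  `SemilinearAut.ofAlgAut (diamondBar L M d)` on `Pic⁰` (Prelude's generic action on places,
  `(g • v).ord (g • f) = v.ord f`).
* `heckeOneQbar M p`, `heckeOneTQbar M p`, `diamondOneQbar M d` : the same on `JOne M`.

Moduli dictionary (mu-type model of FieldDefs62: a point is `(E, i : μ_M → E)`, the Tate curve
`Tate(q)` with its canonical `i`): `β = (q ↦ q^p)` is `(E, i, C) ↦ (E/C, π ∘ i ∘ [p]⁻¹)`, so on points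
`α_* β^* (E, i) = ∑_D (E/D, π_D ∘ i)` and `β_* α^* (E, i) = ∑_C (E/C, π_C ∘ i ∘ [p]⁻¹)`;
`diamond M d` is the pull-back of functions by `δ_d (E, i) = (E, i ∘ [d])`, hence `diamondOne L M d`
is `δ_d⁻¹` on points.  In characteristic `p ∤ M` this gives `heckeOneT = F + diamondOne p ∘ V`,
i.e. the Eichler–Shimura relation `F² - heckeOneT ∘ F + p • diamondOne p = 0` (chapter B4).
-/
import Mathlib
import Fermat.Prelude.Def_ModularCurve_HeckeOperator
import Fermat.Agent.DS.G1.FieldDefs62

set_option autoImplicit false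

noncomputable section

namespace Fermat.Agent.DS.G1.OpsDefs45

open ModularCurve HahnSeries IntermediateField AlgebraicCurve Fermat.Agent.DS.G1.Defs62

/-! ### The Hecke operators `α_* β^*` and `β_* α^*`, total versions -/

section Hecke

variable (L : Type*) [Field L] [Algebra ℚ L] (M p : ℕ) [NeZero p]

/-- The inputs that make `α_* β^*` a well defined endomorphism of `Pic⁰(L·F1(M))`
(twin of the Prelude's `HeckeInputsAlong`). -/
def HeckeInputsAlongOne : Prop :=
  ∃ (_ : HeckeAlphaBarOneIntegral L M p) (hβ : HeckeBetaBarOneIntegral L M p)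
    (_ : HasPrincipalDivisors L (laurentBaseChange L (F1p M p)))
    (hfin : FiniteAlong L (heckeAlphaBarOne L M p)),
    FundamentalIdentityAlong L (heckeBetaBarOne L M p) hβ ∧
      NormFormulaAlong L (heckeAlphaBarOne L M p) hfin

/-- The inputs that make `β_* α^*` a well defined endomorphism of `Pic⁰(L·F1(M))`. -/
def HeckeInputsAlongOneT : Prop :=
  ∃ (hα : HeckeAlphaBarOneIntegral L M p) (_ : HeckeBetaBarOneIntegral L M p)
    (_ : HasPrincipalDivisors L (laurentBaseChange L (F1p M p)))
    (hfin : FiniteAlong L (heckeBetaBarOne L M p)),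
    FundamentalIdentityAlong L (heckeAlphaBarOne L M p) hα ∧
      NormFormulaAlong L (heckeBetaBarOne L M p) hfin

open Classical in
/-- **`α_* β^*` on `Pic⁰(L·F1(M))`** (junk value `0` unless `HeckeInputsAlongOne`); twin of the
Prelude's `heckeOperatorAlong`. -/
def heckeOne :
    Pic0 L (laurentBaseChange L (F1 M)) →+ Pic0 L (laurentBaseChange L (F1 M)) :=
  if h : HeckeInputsAlongOne L M p then
    haveI := h.snd.snd.fst
    heckePic0BarOne h.fst h.snd.fst h.snd.snd.snd.snd.1 h.snd.snd.snd.fst h.snd.snd.snd.snd.2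
  else 0

open Classical in
/-- **`β_* α^*` on `Pic⁰(L·F1(M))`** (junk value `0` unless `HeckeInputsAlongOneT`). -/
def heckeOneT :
    Pic0 L (laurentBaseChange L (F1 M)) →+ Pic0 L (laurentBaseChange L (F1 M)) :=
  if h : HeckeInputsAlongOneT L M p then
    haveI := h.snd.snd.fst
    heckePic0BarOneTranspose h.fst h.snd.fst h.snd.snd.snd.snd.1 h.snd.snd.snd.fst
      h.snd.snd.snd.snd.2
  else 0

variable {L M p}

theorem heckeInputsAlongOne_intro (hα : HeckeAlphaBarOneIntegral L M p)
    (hβ : HeckeBetaBarOneIntegral L M p)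
    [hP : HasPrincipalDivisors L (laurentBaseChange L (F1p M p))]
    (hFI : FundamentalIdentityAlong L (heckeBetaBarOne L M p) hβ)
    (hfin : FiniteAlong L (heckeAlphaBarOne L M p))
    (hN : NormFormulaAlong L (heckeAlphaBarOne L M p) hfin) : HeckeInputsAlongOne L M p :=
  ⟨hα, hβ, hP, hfin, hFI, hN⟩

theorem heckeInputsAlongOneT_intro (hα : HeckeAlphaBarOneIntegral L M p)
    (hβ : HeckeBetaBarOneIntegral L M p)
    [hP : HasPrincipalDivisors L (laurentBaseChange L (F1p M p))]
    (hFI : FundamentalIdentityAlong L (heckeAlphaBarOne L M p) hα)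
    (hfin : FiniteAlong L (heckeBetaBarOne L M p))
    (hN : NormFormulaAlong L (heckeBetaBarOne L M p) hfin) : HeckeInputsAlongOneT L M p :=
  ⟨hα, hβ, hP, hfin, hFI, hN⟩

theorem heckeOne_eq (hα : HeckeAlphaBarOneIntegral L M p) (hβ : HeckeBetaBarOneIntegral L M p)
    [HasPrincipalDivisors L (laurentBaseChange L (F1p M p))]
    (hFI : FundamentalIdentityAlong L (heckeBetaBarOne L M p) hβ)
    (hfin : FiniteAlong L (heckeAlphaBarOne L M p))
    (hN : NormFormulaAlong L (heckeAlphaBarOne L M p) hfin) :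
    heckeOne L M p = heckePic0BarOne hα hβ hFI hfin hN := by
  have h : HeckeInputsAlongOne L M p := heckeInputsAlongOne_intro hα hβ hFI hfin hN
  rw [heckeOne, dif_pos h]

theorem heckeOneT_eq (hα : HeckeAlphaBarOneIntegral L M p) (hβ : HeckeBetaBarOneIntegral L M p)
    [HasPrincipalDivisors L (laurentBaseChange L (F1p M p))]
    (hFI : FundamentalIdentityAlong L (heckeAlphaBarOne L M p) hα)
    (hfin : FiniteAlong L (heckeBetaBarOne L M p))
    (hN : NormFormulaAlong L (heckeBetaBarOne L M p) hfin) :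
    heckeOneT L M p = heckePic0BarOneTranspose hα hβ hFI hfin hN := by
  have h : HeckeInputsAlongOneT L M p := heckeInputsAlongOneT_intro hα hβ hFI hfin hN
  rw [heckeOneT, dif_pos h]

theorem heckeOne_of_not (h : ¬ HeckeInputsAlongOne L M p) : heckeOne L M p = 0 := by
  rw [heckeOne, dif_neg h]

theorem heckeOneT_of_not (h : ¬ HeckeInputsAlongOneT L M p) : heckeOneT L M p = 0 := by
  rw [heckeOneT, dif_neg h]

end Hecke

/-! ### The diamond operators on `L·F1(M)` and on `Pic⁰(L·F1(M))` -/

section Diamond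

variable (L : Type*) [Field L] [Algebra ℚ L] (M : ℕ) (d : (ZMod M)ˣ)

/-- `coeffEmb L x` as an element of `L·F1(M)`, for `x ∈ F1 M`. -/
def embF1 (x : F1 M) : laurentBaseChange L (F1 M) :=
  ⟨coeffEmb L (x : LaurentSeries ℚ), coeffEmb_mem_laurentBaseChange L x.2⟩

@[simp]
theorem coe_embF1 (x : F1 M) :
    ((embF1 L M x : laurentBaseChange L (F1 M)) : LaurentSeries L) =
      coeffEmb L (x : LaurentSeries ℚ) :=
  rfl

/-- `s` is the `L`-linear extension of the diamond operator `⟨d⟩` to `L·F1(M)`. -/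
def IsDiamondBar (s : laurentBaseChange L (F1 M) ≃ₐ[L] laurentBaseChange L (F1 M)) : Prop :=
  ∀ x : F1 M, s (embF1 L M x) = embF1 L M (diamond M d x)

/-- The `L`-linear extension of `⟨d⟩` exists (a theorem of brick B2-aut: `L` and `F1 M` are
linearly disjoint over `ℚ`). -/
def DiamondBarExists : Prop :=
  ∃ s : laurentBaseChange L (F1 M) ≃ₐ[L] laurentBaseChange L (F1 M), IsDiamondBar L M d s

set_option synthInstance.maxHeartbeats 400000 in
variable {L M d} in
/-- The extension is unique. -/
theorem IsDiamondBar.unique {s t : laurentBaseChange L (F1 M) ≃ₐ[L] laurentBaseChange L (F1 M)}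
    (hs : IsDiamondBar L M d s) (ht : IsDiamondBar L M d t) : s = t := by
  have key : ∀ y : LaurentSeries L, ∀ hy : y ∈ laurentBaseChange L (F1 M),
      s ⟨y, hy⟩ = t ⟨y, hy⟩ := by
    intro y hy
    induction hy using IntermediateField.adjoin_induction with
    | mem x hx =>
        obtain ⟨z, hz, rfl⟩ := hx
        exact (hs ⟨z, hz⟩).trans (ht ⟨z, hz⟩).symm
    | algebraMap r =>
        have h1 : (⟨algebraMap L (LaurentSeries L) r,
            (laurentBaseChange L (F1 M)).algebraMap_mem r⟩ : laurentBaseChange L (F1 M))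
            = algebraMap L (laurentBaseChange L (F1 M)) r := Subtype.ext (by simp)
        rw [h1, s.commutes, t.commutes]
    | add x y hx hy ihx ihy =>
        have h1 : (⟨x + y, add_mem hx hy⟩ : laurentBaseChange L (F1 M)) = ⟨x, hx⟩ + ⟨y, hy⟩ :=
          rfl
        rw [h1, map_add, map_add, ihx, ihy]
    | inv x hx ihx =>
        have h1 : (⟨x⁻¹, inv_mem hx⟩ : laurentBaseChange L (F1 M)) =
            (⟨x, hx⟩ : laurentBaseChange L (F1 M))⁻¹ := rfl
        rw [h1, map_inv₀, map_inv₀, ihx]
    | mul x y hx hy ihx ihy =>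
        have h1 : (⟨x * y, mul_mem hx hy⟩ : laurentBaseChange L (F1 M)) = ⟨x, hx⟩ * ⟨y, hy⟩ :=
          rfl
        rw [h1, map_mul, map_mul, ihx, ihy]
  exact AlgEquiv.ext fun x => key x.1 x.2

open Classical in
/-- **The diamond operator `⟨d⟩` on `L·F1(M)`** (junk value `refl` unless `DiamondBarExists`). -/
def diamondBar : laurentBaseChange L (F1 M) ≃ₐ[L] laurentBaseChange L (F1 M) :=
  if h : DiamondBarExists L M d then h.choose else AlgEquiv.refl

variable {L M d} in
theorem isDiamondBar_diamondBar (h : DiamondBarExists L M d) :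
    IsDiamondBar L M d (diamondBar L M d) := by
  unfold diamondBar
  rw [dif_pos h]
  exact h.choose_spec

variable {L M d} in
theorem diamondBar_eq {s : laurentBaseChange L (F1 M) ≃ₐ[L] laurentBaseChange L (F1 M)}
    (hs : IsDiamondBar L M d s) : diamondBar L M d = s :=
  (isDiamondBar_diamondBar ⟨s, hs⟩).unique hs

/-- **The diamond operator on `Pic⁰(L·F1(M))`**: the action of `diamondBar L M d` through the
Prelude's generic action of semilinear automorphisms on places. -/
def diamondOne :
    Pic0 L (laurentBaseChange L (F1 M)) →+ Pic0 L (laurentBaseChange L (F1 M)) :=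
  DistribSMul.toAddMonoidHom (Pic0 L (laurentBaseChange L (F1 M)))
    (SemilinearAut.ofAlgAut (diamondBar L M d))

@[simp]
theorem diamondOne_apply (x : Pic0 L (laurentBaseChange L (F1 M))) :
    diamondOne L M d x = SemilinearAut.ofAlgAut (diamondBar L M d) • x :=
  rfl

end Diamond

/-! ### The operators on `JOne M` -/

section Qbar

/-- `α_* β^*` on `JOne M`. -/
def heckeOneQbar (M p : ℕ) [NeZero p] : JOne M →+ JOne M :=
  heckeOne (AlgebraicClosure ℚ) M p

/-- `β_* α^*` on `JOne M`. -/
def heckeOneTQbar (M p : ℕ) [NeZero p] : JOne M →+ JOne M :=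
  heckeOneT (AlgebraicClosure ℚ) M p

/-- `⟨d⟩` on `JOne M`. -/
def diamondOneQbar (M : ℕ) (d : (ZMod M)ˣ) : JOne M →+ JOne M :=
  diamondOne (AlgebraicClosure ℚ) M d

/-- the unit `p mod M` for `p` prime to `M`. -/
def unitOfCoprime (M p : ℕ) (h : Nat.Coprime p M) : (ZMod M)ˣ := ZMod.unitOfCoprime p h

@[simp]
theorem coe_unitOfCoprime (M p : ℕ) (h : Nat.Coprime p M) :
    ((unitOfCoprime M p h : (ZMod M)ˣ) : ZMod M) = (p : ZMod M) :=
  ZMod.coe_unitOfCoprime p h

end Qbar

end Fermat.Agent.DS.G1.OpsDefs45
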