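/-
Programme G1 (Gamma1 stack for S48), brick B2-an (an3) (helper62): the Weierstrass values at
`M`-torsion points as functions of `z ∈ ℍ`, and the analytic Eisenstein functions `EE_c`, `t_c`.

* `weierstrassP_congr`, `weierstrassP_scalePair` : `℘` depends only on the lattice; homogeneity.
* `lattice_pairOfUHP_smul` : `ℤ(γz)+ℤ = (cz+d)⁻¹(ℤz+ℤ)`.
* `wpTor M a b z = ℘((az+b)/M; ℤz+ℤ)`;  **`wpTor_smul`** : `℘_{(a,b)}(γz) = (cz+d)² ℘_{(a,b)γ}(z)`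
  for ALL `γ ∈ SL(2,ℤ)` (row vector times matrix); `wpTor_add_mul`, `wpTor_congr` (periodicity in
  the index vector mod `M`), `wpTor_neg`.
* `wpT M b = wpTor M 0 b` (`b : ZMod M`): `wpT_smul_of_mem_Gamma0` (`b ↦ b·d`, `d = γ 1 1`),
  `wpT_smul_of_mem_Gamma1`, `wpT_neg`.
* **`eisTwoFun M c z = (1/M) ∑_{b≠0} e(-bc/M) ℘(b/M; ℤz+ℤ)/(2πi)²`** (analytic `EE_c`):
  `eisTwoFun_smul_of_mem_Gamma0 : EE_c(γz) = (cz+d)² EE_{a c}(z)`, `a = γ 0 0 = d⁻¹` — this is the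
  convention `σ t_c = t_{d⁻¹ c}` of `Defs62.IsDiamond`; `eisTwoFun_smul_of_mem_Gamma1`.
* weight 0: `tFun M c = EE_c / Dj` (`Dj = S20/LowDJ.DJ = -E₄²E₆/Δ`), `hFun M c = EE_c E₄E₆/Δ`
  (holomorphic on `ℍ` once `EE_c` is), with their `Γ₀(M)`/`Γ₁(M)` laws.
* Spec (Props, for (an4)): `EisTwoQExp M` (`EE_c` has the `q`-expansion `Defs62.eisTwo M c`),
  `WpTorHolo M` (holomorphy in `z`).
-/
import Mathlib
import Fermat.Agent.X0.LatticeEis
import Fermat.Agent.S20.LowDJ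
import Fermat.Agent.DS.G1.FieldDefs62

set_option autoImplicit false

open UpperHalfPlane Complex Matrix MatrixGroups CongruenceSubgroup
open scoped PeriodPair Manifold

namespace Fermat.Agent.DS.G1.WpTorsion62

open PeriodPair Fermat.Agent.X0.LatticeEis

noncomputable section

/-! ### `℘` and lattices -/

/-- `℘` depends only on the lattice. -/
theorem weierstrassP_congr {L L' : PeriodPair} (h : L.lattice = L'.lattice) (u : ℂ) :
    ℘[L] u = ℘[L'] u := by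
  unfold PeriodPair.weierstrassP
  rw [h]

/-- Homogeneity of `℘`: `℘(c u; c L) = c⁻² ℘(u; L)`. -/
theorem weierstrassP_scalePair (c : ℂ) (hc : c ≠ 0) (L : PeriodPair) (u : ℂ) :
    ℘[scalePair c hc L] (c * u) = (c ^ 2)⁻¹ * ℘[L] u := by
  unfold PeriodPair.weierstrassP
  rw [← (scaleEquiv c hc L).tsum_eq, ← tsum_mul_left]
  refine tsum_congr fun l => ?_
  rw [coe_scaleEquiv]
  by_cases hl : (l : ℂ) = 0
  · rw [hl]; simp; field_simp
  · by_cases hu : u - l = 0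
    · rw [show c * u - c * (l:ℂ) = c * (u - l) by ring, hu]; simp; field_simp
    · rw [show c * u - c * (l:ℂ) = c * (u - l) by ring]
      field_simp

/-- The coordinates of `γ • z`. -/
theorem coe_smul_eq (γ : SL(2, ℤ)) (z : ℍ) :
    ((γ • z : ℍ) : ℂ) = ((γ 0 0 : ℂ) * z + (γ 0 1 : ℂ)) / denom γ z := by
  have h := UpperHalfPlane.coe_specialLinearGroup_apply γ z
  rw [h, ModularGroup.denom_apply]
  simp

/-- The lattice `ℤ (γ z) + ℤ` is `(c z + d)⁻¹ (ℤ z + ℤ)`. -/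
theorem lattice_pairOfUHP_smul (γ : SL(2, ℤ)) (z : ℍ) :
    (pairOfUHP (γ • z)).lattice =
      (scalePair (denom γ z)⁻¹ (inv_ne_zero (denom_ne_zero γ z)) (pairOfUHP z)).lattice := by
  have hd : denom γ z ≠ 0 := denom_ne_zero γ z
  have hdet : (γ 0 0 : ℂ) * (γ 1 1 : ℂ) - (γ 0 1 : ℂ) * (γ 1 0 : ℂ) = 1 := by
    have h := γ.det_coe
    rw [Matrix.det_fin_two] at h
    exact_mod_cast h
  ext x
  simp only [PeriodPair.mem_lattice, pairOfUHP_ω₁, pairOfUHP_ω₂, scalePair_ω₁, scalePair_ω₂]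
  rw [coe_smul_eq]
  have hden : denom γ z = (γ 1 0 : ℂ) * z + (γ 1 1 : ℂ) := ModularGroup.denom_apply γ z
  constructor
  · rintro ⟨m, n, rfl⟩
    refine ⟨m * γ 0 0 + n * γ 1 0, m * γ 0 1 + n * γ 1 1, ?_⟩
    push_cast
    field_simp
    rw [hden]; ring
  · rintro ⟨m, n, rfl⟩
    refine ⟨m * γ 1 1 - n * γ 1 0, -m * γ 0 1 + n * γ 0 0, ?_⟩
    push_cast
    field_simp
    rw [hden]
    linear_combination ((m : ℂ) * z + n) * hdet

/-! ### `℘` at torsion points as a function of `z` -/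

/-- The value of `℘(·; ℤz+ℤ)` at the `M`-torsion point `(a z + b)/M`. -/
def wpTor (M : ℕ) (a b : ℤ) (z : ℍ) : ℂ :=
  ℘[pairOfUHP z] (((a : ℂ) * z + b) / M)

/-- **Transformation law**: `℘_{(a,b)}(γ z) = (cz+d)² ℘_{(a,b)γ}(z)` for all `γ ∈ SL(2,ℤ)`. -/
theorem wpTor_smul (M : ℕ) (a b : ℤ) (γ : SL(2, ℤ)) (z : ℍ) :
    wpTor M a b (γ • z) =
      denom γ z ^ 2 * wpTor M (a * γ 0 0 + b * γ 1 0) (a * γ 0 1 + b * γ 1 1) z := by
  have hd : denom γ z ≠ 0 := denom_ne_zero γ z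
  have hden : denom γ z = (γ 1 0 : ℂ) * z + (γ 1 1 : ℂ) := ModularGroup.denom_apply γ z
  unfold wpTor
  rw [weierstrassP_congr (lattice_pairOfUHP_smul γ z)]
  have hu : ((a : ℂ) * ((γ • z : ℍ) : ℂ) + b) / M =
      (denom γ z)⁻¹ * ((((a * γ 0 0 + b * γ 1 0 : ℤ) : ℂ) * z +
        ((a * γ 0 1 + b * γ 1 1 : ℤ) : ℂ)) / M) := by
    rw [coe_smul_eq]
    push_cast
    field_simp
    rw [hden]; ring
  rw [hu, weierstrassP_scalePair]
  rw [inv_pow, inv_inv]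

/-- Periodicity in the index vector. -/
theorem wpTor_add_mul (M : ℕ) [NeZero M] (a b k l : ℤ) (z : ℍ) :
    wpTor M (a + M * k) (b + M * l) z = wpTor M a b z := by
  unfold wpTor
  have hM : (M : ℂ) ≠ 0 := by exact_mod_cast NeZero.ne M
  have hmem : (k : ℂ) * z + l ∈ (pairOfUHP z).lattice :=
    PeriodPair.mem_lattice.mpr ⟨k, l, by simp⟩
  have h : (((a + M * k : ℤ) : ℂ) * z + ((b + M * l : ℤ) : ℂ)) / M
      = ((a : ℂ) * z + b) / M + ((⟨(k : ℂ) * z + l, hmem⟩ : (pairOfUHP z).lattice) : ℂ) := by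
    push_cast
    field_simp
    ring
  rw [h, PeriodPair.weierstrassP_add_coe]

theorem wpTor_congr (M : ℕ) [NeZero M] {a a' b b' : ℤ} (ha : (a : ZMod M) = (a' : ZMod M))
    (hb : (b : ZMod M) = (b' : ZMod M)) (z : ℍ) : wpTor M a b z = wpTor M a' b' z := by
  obtain ⟨k, hk⟩ := (ZMod.intCast_eq_intCast_iff_dvd_sub a a' M).mp ha
  obtain ⟨l, hl⟩ := (ZMod.intCast_eq_intCast_iff_dvd_sub b b' M).mp hb
  have h1 : a' = a + M * k := by linarith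
  have h2 : b' = b + M * l := by linarith
  rw [h1, h2, wpTor_add_mul]

theorem wpTor_neg (M : ℕ) (a b : ℤ) (z : ℍ) : wpTor M (-a) (-b) z = wpTor M a b z := by
  unfold wpTor
  rw [← PeriodPair.weierstrassP_neg]
  congr 1
  push_cast
  ring

/-- `℘` at the torsion point `b/M` ("mu-side"), indexed by `b : ZMod M`. -/
def wpT (M : ℕ) (b : ZMod M) (z : ℍ) : ℂ := wpTor M 0 (b.cast : ℤ) z

theorem wpT_eq (M : ℕ) [NeZero M] (b : ℤ) (z : ℍ) : wpT M (b : ZMod M) z = wpTor M 0 b z := by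
  unfold wpT
  refine wpTor_congr M rfl ?_ z
  simp

/-- `Γ₀(M)`: `℘_b(γ z) = (cz+d)² ℘_{b d}(z)`, `d = γ 1 1`. -/
theorem wpT_smul_of_mem_Gamma0 (M : ℕ) [NeZero M] (b : ZMod M) {γ : SL(2, ℤ)} (hγ : γ ∈ Gamma0 M)
    (z : ℍ) : wpT M b (γ • z) = denom γ z ^ 2 * wpT M (b * (γ 1 1 : ZMod M)) z := by
  rw [Gamma0_mem] at hγ
  unfold wpT
  rw [wpTor_smul]
  congr 1
  refine wpTor_congr M ?_ ?_ z
  · push_cast
    rw [hγ]; simp
  · push_cast
    simp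

/-- `Γ₁(M)`-invariance (weight 2). -/
theorem wpT_smul_of_mem_Gamma1 (M : ℕ) [NeZero M] (b : ZMod M) {γ : SL(2, ℤ)} (hγ : γ ∈ Gamma1 M)
    (z : ℍ) : wpT M b (γ • z) = denom γ z ^ 2 * wpT M b z := by
  have h0 : γ ∈ Gamma0 M := by
    rw [Gamma0_mem]; exact ((Gamma1_mem M γ).mp hγ).2.2
  rw [wpT_smul_of_mem_Gamma0 M b h0, ((Gamma1_mem M γ).mp hγ).2.1, mul_one]

theorem wpT_neg (M : ℕ) [NeZero M] (b : ZMod M) (z : ℍ) : wpT M (-b) z = wpT M b z := by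
  have h1 : wpT M (-b) z = wpTor M 0 (-(b.cast : ℤ)) z := by
    rw [← wpT_eq]; congr 1; simp
  rw [h1]
  have h2 := wpTor_neg M 0 (b.cast : ℤ) z
  rw [neg_zero] at h2
  rw [h2]; rfl

/-! ### The weight-2 Eisenstein function `EE_c` -/

/-- `EE_c(z) = (1/M) ∑_{b ≠ 0} e(-bc/M) ℘(b/M; ℤz+ℤ) / (2πi)²`. -/
def eisTwoFun (M : ℕ) [NeZero M] (c : ZMod M) (z : ℍ) : ℂ :=
  (1 / (M : ℂ)) * ∑ b : ZMod M, if b = 0 then 0 else
    ZMod.stdAddChar (-(b * c)) * (wpT M b z / (2 * (Real.pi : ℂ) * Complex.I) ^ 2)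

/-- `Γ₀(M)`: `EE_c(γ z) = (cz+d)² EE_{a c}(z)`, `a = γ 0 0` (`= d⁻¹` mod `M`). -/
theorem eisTwoFun_smul_of_mem_Gamma0 (M : ℕ) [NeZero M] (c : ZMod M) {γ : SL(2, ℤ)}
    (hγ : γ ∈ Gamma0 M) (z : ℍ) :
    eisTwoFun M c (γ • z) = denom γ z ^ 2 * eisTwoFun M ((γ 0 0 : ZMod M) * c) z := by
  have hγ0 := Gamma0_mem.mp hγ
  -- `a d = 1` in `ZMod M`
  have had : (γ 0 0 : ZMod M) * (γ 1 1 : ZMod M) = 1 := by
    have h := γ.det_coe
    rw [Matrix.det_fin_two] at h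
    have h' : ((γ 0 0 * γ 1 1 - γ 0 1 * γ 1 0 : ℤ) : ZMod M) = 1 := by rw [h]; simp
    push_cast at h'
    rw [hγ0, mul_zero, sub_zero] at h'
    exact h'
  have hda : (γ 1 1 : ZMod M) * (γ 0 0 : ZMod M) = 1 := by rw [mul_comm]; exact had
  let e : ZMod M ≃ ZMod M :=
    { toFun := fun b => b * (γ 1 1 : ZMod M)
      invFun := fun b => b * (γ 0 0 : ZMod M)
      left_inv := fun b => by simp only; rw [mul_assoc, hda, mul_one]
      right_inv := fun b => by simp only; rw [mul_assoc, had, mul_one] }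
  unfold eisTwoFun
  have key : (∑ b : ZMod M, if b = 0 then (0 : ℂ) else
        ZMod.stdAddChar (-(b * c)) * (wpT M b (γ • z) / (2 * (Real.pi : ℂ) * Complex.I) ^ 2))
      = denom γ z ^ 2 * ∑ b : ZMod M, if b = 0 then (0 : ℂ) else
        ZMod.stdAddChar (-(b * ((γ 0 0 : ZMod M) * c))) *
          (wpT M b z / (2 * (Real.pi : ℂ) * Complex.I) ^ 2) := by
    rw [Finset.mul_sum]
    refine Fintype.sum_equiv e _ _ fun b => ?_
    have he : e b = b * (γ 1 1 : ZMod M) := rfl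
    rw [he]
    by_cases hb : b = 0
    · simp [hb]
    · have hb' : b * (γ 1 1 : ZMod M) ≠ 0 := by
        intro h
        apply hb
        have := congrArg (· * (γ 0 0 : ZMod M)) h
        simpa [mul_assoc, hda] using this
      rw [if_neg hb, if_neg hb', wpT_smul_of_mem_Gamma0 M b hγ]
      have : b * (γ 1 1 : ZMod M) * ((γ 0 0 : ZMod M) * c) = b * c := by
        rw [mul_assoc, ← mul_assoc (γ 1 1 : ZMod M), hda, one_mul]
      rw [this]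
      ring
  rw [key]
  ring

/-- `Γ₁(M)`-invariance of `EE_c` (weight 2). -/
theorem eisTwoFun_smul_of_mem_Gamma1 (M : ℕ) [NeZero M] (c : ZMod M) {γ : SL(2, ℤ)}
    (hγ : γ ∈ Gamma1 M) (z : ℍ) :
    eisTwoFun M c (γ • z) = denom γ z ^ 2 * eisTwoFun M c z := by
  have h0 : γ ∈ Gamma0 M := by
    rw [Gamma0_mem]; exact ((Gamma1_mem M γ).mp hγ).2.2
  rw [eisTwoFun_smul_of_mem_Gamma0 M c h0, ((Gamma1_mem M γ).mp hγ).1, one_mul]

/-! ### Weight `0`: the analytic `t_c` and its holomorphic multiple `h_c` -/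

open Fermat.Agent.S20.LowDJ Fermat.Agent.X0 EisensteinSeries ModularForm

local notation "Δ" => ModularForm.discriminant

/-- The analytic `t_c = EE_c / D j` (meromorphic on `ℍ`; junk value `0` at the zeros of `D j`,
i.e. at the elliptic points). -/
def tFun (M : ℕ) [NeZero M] (c : ZMod M) (z : ℍ) : ℂ := eisTwoFun M c z / DJ z

/-- The analytic `h_c = EE_c E₄ E₆ / Δ = -j (j - 1728) t_c`. -/
def hFun (M : ℕ) [NeZero M] (c : ZMod M) (z : ℍ) : ℂ := eisTwoFun M c z * E₄ z * E₆ z / Δ z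

theorem tFun_smul_of_mem_Gamma0 (M : ℕ) [NeZero M] (c : ZMod M) {γ : SL(2, ℤ)}
    (hγ : γ ∈ Gamma0 M) (z : ℍ) :
    tFun M c (γ • z) = tFun M ((γ 0 0 : ZMod M) * c) z := by
  have hd : denom γ z ^ 2 ≠ 0 := pow_ne_zero 2 (denom_ne_zero γ z)
  unfold tFun
  rw [eisTwoFun_smul_of_mem_Gamma0 M c hγ, DJ_smul, mul_div_mul_left _ _ hd]

theorem tFun_smul_of_mem_Gamma1 (M : ℕ) [NeZero M] (c : ZMod M) {γ : SL(2, ℤ)}
    (hγ : γ ∈ Gamma1 M) (z : ℍ) : tFun M c (γ • z) = tFun M c z := by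
  have h0 : γ ∈ Gamma0 M := by
    rw [Gamma0_mem]; exact ((Gamma1_mem M γ).mp hγ).2.2
  rw [tFun_smul_of_mem_Gamma0 M c h0, ((Gamma1_mem M γ).mp hγ).1, one_mul]

theorem hFun_smul_of_mem_Gamma0 (M : ℕ) [NeZero M] (c : ZMod M) {γ : SL(2, ℤ)}
    (hγ : γ ∈ Gamma0 M) (z : ℍ) :
    hFun M c (γ • z) = hFun M ((γ 0 0 : ZMod M) * c) z := by
  have hd : denom γ z ≠ 0 := denom_ne_zero γ z
  have hΔ : Δ z ≠ 0 := discriminant_ne_zero z
  unfold hFun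
  rw [eisTwoFun_smul_of_mem_Gamma0 M c hγ, E₄_smul, E₆_smul, discriminant_smul]
  have h4 : denom γ z ^ (4 : ℤ) = denom γ z ^ 4 := by norm_cast
  have h6 : denom γ z ^ (6 : ℤ) = denom γ z ^ 6 := by norm_cast
  have h12 : denom γ z ^ (12 : ℤ) = denom γ z ^ 12 := by norm_cast
  rw [h4, h6, h12]
  field_simp

theorem hFun_smul_of_mem_Gamma1 (M : ℕ) [NeZero M] (c : ZMod M) {γ : SL(2, ℤ)}
    (hγ : γ ∈ Gamma1 M) (z : ℍ) : hFun M c (γ • z) = hFun M c z := by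
  have h0 : γ ∈ Gamma0 M := by
    rw [Gamma0_mem]; exact ((Gamma1_mem M γ).mp hγ).2.2
  rw [hFun_smul_of_mem_Gamma0 M c h0, ((Gamma1_mem M γ).mp hγ).1, one_mul]

/-- `h_c · D j = -EE_c · E₄³E₆²/Δ²`, i.e. `h_c = -j (j-1728) t_c` away from the elliptic points. -/
theorem hFun_mul_DJ (M : ℕ) [NeZero M] (c : ZMod M) (z : ℍ) :
    hFun M c z * DJ z = -(eisTwoFun M c z) * (E₄ z ^ 3 * E₆ z ^ 2 / Δ z ^ 2) := by
  have hΔ : Δ z ≠ 0 := discriminant_ne_zero z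
  unfold hFun DJ
  field_simp

/-! ### Spec for (an4) -/

open Fermat.Agent.DS.G1.Defs62

/-- (an4-q) `EE_c` has the `q`-expansion `eisTwo M c` (absolutely convergent on all of `ℍ`). -/
def EisTwoQExp (M : ℕ) [NeZero M] : Prop :=
  ∀ c : ZMod M, c ≠ 0 →
    IsQExp 1 (eisTwoFun M c) 0 ((eisTwo M c).map (algebraMap ℚ ℂ))

/-- (an4-h) the torsion values are holomorphic functions of `z` (for index vectors `≢ 0`). -/
def WpTorHolo (M : ℕ) : Prop :=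
  ∀ a b : ℤ, ¬ ((M : ℤ) ∣ a ∧ (M : ℤ) ∣ b) → MDifferentiable 𝓘(ℂ) 𝓘(ℂ) (wpTor M a b)

end

end Fermat.Agent.DS.G1.WpTorsion62
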